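import Fermat.Agent.CM.Cubic.Periodic

/-!
# The Hecke series of a Grössencharakter of `ℚ(√-3)`

For a weight `φ` of `c` the numbers `∑ φ (α) α`, over `α ≡ 1 (mod 3)` of norm `n`, satisfy at every
prime the recursion of the L-function of a curve with additive reduction at the primes dividing
`3 c`.
-/

set_option autoImplicit false

noncomputable section

open scoped QuadraticAlgebra

namespace FA.CM.Cubic

open scoped Classical in
/-- The elements congruent to `1` modulo `3` of norm `n`. -/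
def primarySet (n : ℕ) : Finset EInt :=
  ((Finset.Icc (-(2 * n : ℤ)) (2 * n) ×ˢ Finset.Icc (-(2 * n : ℤ)) (2 * n)).image
    fun x => (⟨x.1, x.2⟩ : EInt)).filter fun α => IsPrimary α ∧ α.norm = (n : ℤ)

theorem mem_primarySet {n : ℕ} {α : EInt} :
    α ∈ primarySet n ↔ IsPrimary α ∧ α.norm = (n : ℤ) := by
  simp only [primarySet, Finset.mem_filter, and_iff_right_iff_imp, Finset.mem_image]
  rintro ⟨-, h⟩
  rw [norm_eq] at h
  refine ⟨(α.re, α.im), ?_, rfl⟩
  simp only [Finset.mem_product, Finset.mem_Icc]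
  have h1 : α.re ^ 2 ≤ 2 * n := by nlinarith [sq_nonneg (α.re - 2 * α.im)]
  have h2 : α.im ^ 2 ≤ 2 * n := by nlinarith [sq_nonneg (2 * α.re - α.im)]
  refine ⟨⟨?_, ?_⟩, ?_, ?_⟩ <;>
    nlinarith [Int.le_self_sq α.re, Int.le_self_sq (-α.re), Int.le_self_sq α.im,
      Int.le_self_sq (-α.im)]

/-- `∑ φ (α) α`. -/
def primarySum (φ : EInt → EInt) (n : ℕ) : EInt := ∑ α ∈ primarySet n, φ α * α

theorem primarySet_zero : primarySet 0 = ∅ := by
  refine Finset.eq_empty_iff_forall_notMem.mpr fun α hα => ?_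
  obtain ⟨h, hn⟩ := mem_primarySet.mp hα
  have := h.norm_mod_three
  omega

theorem primarySum_one {c : ℤ} {φ : EInt → EInt} (hφ : IsWeight c φ) : primarySum φ 1 = 1 := by
  have h : primarySet 1 = {1} := by
    refine Finset.eq_singleton_iff_unique_mem.mpr
      ⟨mem_primarySet.mpr ⟨by simp [IsPrimary], by simp⟩, fun α hα => ?_⟩
    obtain ⟨h1, hn⟩ := mem_primarySet.mp hα
    obtain ⟨s, t, e1, e2⟩ := h1.exists_eq
    rw [norm_eq, e1, e2] at hn
    push_cast at hn
    have ht : t = 0 := by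
      by_contra ht
      rcases lt_or_gt_of_ne ht with h | h <;>
        nlinarith [sq_nonneg (2 * (3 * s + 1) - 3 * t)]
    subst ht
    have hs : s = 0 := by
      by_contra hs
      rcases lt_or_gt_of_ne hs with h | h <;> nlinarith
    subst hs
    exact QuadraticAlgebra.ext (by simpa using e1) (by simpa using e2)
  rw [primarySum, h, Finset.sum_singleton, mul_one, ← Int.cast_one,
    hφ.map_int 1 (by norm_num) isCoprime_one_left, Int.cast_one]

/-- Removing a factor. -/
theorem sum_image_mul {c : ℤ} {φ : EInt → EInt} (hφ : IsWeight c φ) {π : EInt} (hπ : IsPrimary π)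
    (n : ℕ) :
    ∑ α ∈ (primarySet n).image (π * ·), φ α * α = φ π * π * primarySum φ n := by
  classical
  rw [Finset.sum_image fun x _ y _ h => mul_left_cancel₀ hπ.ne_zero h, primarySum, Finset.mul_sum]
  refine Finset.sum_congr rfl fun β hβ => ?_
  rw [hφ.map_mul π β hπ (mem_primarySet.mp hβ).1]
  ring

theorem mem_image_mul {π : EInt} (hπ : IsPrimary π) {k n : ℕ} (hk : π.norm = (k : ℤ)) (hk0 : 0 < k)
    {α : EInt} :
    α ∈ (primarySet n).image (π * ·) ↔ α ∈ primarySet (k * n) ∧ π ∣ α := by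
  simp only [Finset.mem_image, mem_primarySet]
  constructor
  · rintro ⟨β, ⟨h1, h2⟩, rfl⟩
    exact ⟨⟨hπ.mul h1, by rw [map_mul, hk, h2, Nat.cast_mul]⟩, dvd_mul_right _ _⟩
  · rintro ⟨⟨h1, h2⟩, β, rfl⟩
    refine ⟨β, ⟨hπ.of_mul h1, ?_⟩, rfl⟩
    rw [map_mul, hk, Nat.cast_mul] at h2
    exact mul_left_cancel₀ (by exact_mod_cast hk0.ne') h2

/-- A rational prime divides `α` if it divides both coordinates. -/
theorem natCast_dvd_of {p : ℕ} {α : EInt} (h1 : (p : ℤ) ∣ α.re) (h2 : (p : ℤ) ∣ α.im) :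
    (p : EInt) ∣ α := by
  obtain ⟨a, ha⟩ := h1
  obtain ⟨b, hb⟩ := h2
  refine ⟨⟨a, b⟩, ?_⟩
  ext <;> simp [ha, hb]

section split

variable {p : ℕ} [hp : Fact p.Prime] {j : ZMod p} (hj : j ^ 2 + j + 1 = 0) (hp3 : p ≠ 3)
include hp3

theorem natCast_dvd_of_evalW {α : EInt} (h1 : evalW hj α = 0)
    (h2 : evalW (sq_add_add_conj hj) α = 0) : (p : EInt) ∣ α := by
  rw [evalW_apply] at h1 h2
  have hd : 2 * j + 1 ≠ 0 := fun e => three_ne_zero' hp3 (by
    linear_combination 4 * hj - (2 * j + 1) * e)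
  have hb : (α.im : ZMod p) = 0 :=
    (mul_eq_zero.mp (show (α.im : ZMod p) * (2 * j + 1) = 0 by linear_combination h1 - h2)).resolve_right hd
  rw [hb, zero_mul, add_zero] at h1
  exact natCast_dvd_of ((ZMod.intCast_zmod_eq_zero_iff_dvd _ p).mp h1)
    ((ZMod.intCast_zmod_eq_zero_iff_dvd _ p).mp hb)

theorem primaryPrime_dvd_iff {α : EInt} : primaryPrime hj hp3 ∣ α ↔ evalW hj α = 0 := by
  refine ⟨fun ⟨β, hβ⟩ => by rw [hβ, map_mul, evalW_primaryPrime, zero_mul], fun h => ?_⟩
  obtain ⟨γ, hγ⟩ := natCast_dvd_of_evalW hj hp3 (α := α * star (primaryPrime hj hp3))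
    (by rw [map_mul, h, zero_mul])
    (by rw [map_mul, ← primaryPrime_conj hj hp3, evalW_primaryPrime, mul_zero])
  refine ⟨γ, mul_right_cancel₀ (b := star (primaryPrime hj hp3))
    (star_ne_zero.mpr (isPrimary_primaryPrime hj hp3).ne_zero) ?_⟩
  rw [hγ, mul_right_comm, primaryPrime_mul_star hj hp3]

end split

section recursion

variable {c : ℤ} {φ : EInt → EInt} (hφ : IsWeight c φ)
include hφ

theorem primarySum_bad {p : ℕ} (hp : p.Prime) (h : p = 3 ∨ (p : ℤ) ∣ c) (n : ℕ) :
    primarySum φ (p * n) = 0 := by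
  refine Finset.sum_eq_zero fun α hmem => ?_
  obtain ⟨hα, hn⟩ := mem_primarySet.mp hmem
  rcases eq_or_ne p 3 with rfl | hp3
  · have := hα.norm_mod_three
    push_cast at hn
    omega
  rw [hφ.map_eq_zero α hα p hp hp3 (h.resolve_left hp3) ⟨n, by rw [hn, Nat.cast_mul]⟩, zero_mul]

theorem primarySum_inert {p : ℕ} [hp : Fact p.Prime] (hp2 : p % 3 = 2) (hpc : ¬ (p : ℤ) ∣ c)
    (n : ℕ) :
    primarySum φ (p * n) + (if p ∣ n then (p : EInt) * primarySum φ (n / p) else 0) = 0 := by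
  classical
  set π : EInt := ((-(p : ℤ) : ℤ) : EInt) with hπ
  have hπp : IsPrimary π := isPrimary_intCast (by omega)
  have hπn : π.norm = ((p * p : ℕ) : ℤ) := by
    rw [hπ, QuadraticAlgebra.norm_intCast]; push_cast; ring
  have hφπ : φ π = 1 := hφ.map_int _ (by omega)
    (((Nat.prime_iff_prime_int.mp hp.out).coprime_iff_not_dvd.mpr hpc).neg_left)
  have hdiv : ∀ α ∈ primarySet (p * n), π ∣ α ∧ p ∣ n := fun α hα => by
    have hn := (mem_primarySet.mp hα).2
    have h0 : ((α.re ^ 2 - α.re * α.im + α.im ^ 2 : ℤ) : ZMod p) = 0 := by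
      rw [← norm_eq, hn]; push_cast; simp
    push_cast at h0
    have hb : (α.im : ZMod p) = 0 := by
      by_contra hb
      have := mod_three_eq_one (p := p) (j := -((α.re : ZMod p) / α.im)) (by
        field_simp
        linear_combination h0) (by omega)
      omega
    have ha : (α.re : ZMod p) = 0 := by
      rw [hb] at h0
      simpa using h0
    have h2 : (p : EInt) ∣ α := natCast_dvd_of ((ZMod.intCast_zmod_eq_zero_iff_dvd _ p).mp ha)
      ((ZMod.intCast_zmod_eq_zero_iff_dvd _ p).mp hb)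
    refine ⟨by rw [hπ, Int.cast_neg, Int.cast_natCast]; exact neg_dvd.mpr h2, ?_⟩
    obtain ⟨β, rfl⟩ := h2
    rw [map_mul, QuadraticAlgebra.norm_natCast, Nat.cast_mul, pow_two, mul_assoc] at hn
    exact Int.natCast_dvd_natCast.mp ⟨β.norm,
      (mul_left_cancel₀ (Int.natCast_ne_zero.mpr hp.out.ne_zero) hn).symm⟩
  by_cases hn : p ∣ n
  · obtain ⟨m, rfl⟩ := hn
    have he : primarySet (p * (p * m)) = (primarySet m).image (π * ·) := by
      ext α
      rw [mem_image_mul hπp hπn (Nat.mul_pos hp.out.pos hp.out.pos), mul_assoc]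
      exact ⟨fun h => ⟨h, (hdiv α h).1⟩, And.left⟩
    rw [if_pos (dvd_mul_right p m), Nat.mul_div_cancel_left _ hp.out.pos, primarySum, he,
      sum_image_mul hφ hπp, hφπ, one_mul, hπ, Int.cast_neg, Int.cast_natCast, neg_mul,
      neg_add_cancel]
  · rw [if_neg hn, add_zero]
    exact Finset.sum_eq_zero fun α hα => absurd (hdiv α hα).2 hn

theorem primarySum_split {p : ℕ} [hp : Fact p.Prime] {j : ZMod p} (hj : j ^ 2 + j + 1 = 0)
    (hp3 : p ≠ 3) (hpc : ¬ (p : ℤ) ∣ c) (n : ℕ) :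
    primarySum φ (p * n) + (if p ∣ n then (p : EInt) * primarySum φ (n / p) else 0) =
      (cubicChar hj hp3 (c : ZMod p) * primaryPrime hj hp3 +
        star (cubicChar hj hp3 (c : ZMod p) * primaryPrime hj hp3)) * primarySum φ n := by
  classical
  set π := primaryPrime hj hp3 with hπ
  have hj' := sq_add_add_conj hj
  have hc : (c : ZMod p) ≠ 0 := by rwa [Ne, ZMod.intCast_zmod_eq_zero_iff_dvd]
  have hπ' : primaryPrime hj' hp3 = star π := primaryPrime_conj hj hp3
  have hπp : IsPrimary π := isPrimary_primaryPrime hj hp3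
  have hπsp : IsPrimary (star π) := hπ' ▸ isPrimary_primaryPrime hj' hp3
  have hn1 : π.norm = (p : ℤ) := norm_primaryPrime hj hp3
  have hn2 : (star π).norm = (p : ℤ) := by rw [QuadraticAlgebra.norm_star, hn1]
  have e1 : φ π = cubicChar hj hp3 (c : ZMod p) := hφ.map_primaryPrime p j hj hp3 hc
  have e2 : φ (star π) = star (cubicChar hj hp3 (c : ZMod p)) := by
    rw [← hπ', hφ.map_primaryPrime p _ hj' hp3 hc, cubicChar_conj hj hp3]
  have hd1 : ∀ α, π ∣ α ↔ evalW hj α = 0 := fun α => primaryPrime_dvd_iff hj hp3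
  have hd2 : ∀ α, star π ∣ α ↔ evalW hj' α = 0 := fun α => hπ' ▸ primaryPrime_dvd_iff hj' hp3
  have hmul : π * star π = ((p : ℤ) : EInt) := by
    rw [Int.cast_natCast]; exact primaryPrime_mul_star hj hp3
  have hpp : IsPrimary ((p : ℤ) : EInt) :=
    isPrimary_intCast (by have := mod_three_eq_one hj hp3; omega)
  set A := (primarySet n).image (π * ·)
  set B := (primarySet n).image (star π * ·)
  have hAB : A ∪ B = primarySet (p * n) := by
    ext α
    rw [Finset.mem_union, mem_image_mul hπp hn1 hp.out.pos, mem_image_mul hπsp hn2 hp.out.pos]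
    refine ⟨fun h => h.elim And.left And.left, fun h => ?_⟩
    have h1 : evalW hj (α * star α) = 0 := by
      rw [norm_mul_star, map_intCast, (mem_primarySet.mp h).2]
      push_cast
      simp
    rw [map_mul, evalW_star, mul_eq_zero, ← hd1, ← hd2] at h1
    exact h1.imp (⟨h, ·⟩) (⟨h, ·⟩)
  have hint : A ∩ B = if p ∣ n then
      (primarySet (n / p)).image (((p : ℤ) : EInt) * ·) else ∅ := by
    have hdvd : ∀ α, (α ∈ A ∩ B) ↔ α ∈ primarySet (p * n) ∧ ((p : ℤ) : EInt) ∣ α := fun α => by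
      rw [Finset.mem_inter, mem_image_mul hπp hn1 hp.out.pos, mem_image_mul hπsp hn2 hp.out.pos]
      refine ⟨fun ⟨⟨h, h1⟩, _, h2⟩ => ⟨h, ?_⟩, fun ⟨h, h'⟩ => ?_⟩
      · rw [Int.cast_natCast]
        exact natCast_dvd_of_evalW hj hp3 ((hd1 α).mp h1) ((hd2 α).mp h2)
      · rw [← hmul] at h'
        exact ⟨⟨h, dvd_of_mul_right_dvd h'⟩, h, dvd_of_mul_left_dvd h'⟩
    split_ifs with hn
    · obtain ⟨m, rfl⟩ := hn
      ext α
      rw [hdvd, Nat.mul_div_cancel_left _ hp.out.pos,
        mem_image_mul hpp (k := p * p) (by rw [QuadraticAlgebra.norm_intCast]; push_cast; ring)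
          (Nat.mul_pos hp.out.pos hp.out.pos), mul_assoc]
    · refine Finset.eq_empty_iff_forall_notMem.mpr fun α hα => ?_
      obtain ⟨h, β, rfl⟩ := (hdvd α).mp hα
      have h' := (mem_primarySet.mp h).2
      rw [map_mul, QuadraticAlgebra.norm_intCast, Int.cast_id, Nat.cast_mul, pow_two, mul_assoc] at h'
      exact hn (Int.natCast_dvd_natCast.mp ⟨β.norm,
        (mul_left_cancel₀ (Int.natCast_ne_zero.mpr hp.out.ne_zero) h').symm⟩)
  have h := Finset.sum_union_inter (s₁ := A) (s₂ := B) (f := fun α => φ α * α)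
  rw [hAB, hint, sum_image_mul hφ hπp, sum_image_mul hφ hπsp, e1, e2] at h
  rw [star_mul', add_mul, ← h, primarySum]
  congr 1
  split_ifs with hn
  · rw [sum_image_mul hφ hpp, hφ.map_int _ (by have := mod_three_eq_one hj hp3; omega)
      ((Nat.prime_iff_prime_int.mp hp.out).coprime_iff_not_dvd.mpr hpc), one_mul, Int.cast_natCast]
  · rw [Finset.sum_empty]

end recursion

end FA.CM.Cubic

end
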