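import Mathlib.Algebra.QuadraticAlgebra.Basic
import Mathlib.RingTheory.IntegralClosure.IntegrallyClosed
import Mathlib.RingTheory.Polynomial.RationalRoot
import Mathlib.Analysis.Complex.Basic
import Mathlib.Analysis.Real.Sqrt
import Mathlib.Algebra.Field.ZMod
import Mathlib.FieldTheory.Finite.Basic

/-!
# The Eisenstein integers

`ℤ[ω]` with `ω² + ω + 1 = 0`, its cube roots of unity and its elements congruent to `1` modulo `3`.
-/

set_option autoImplicit false

noncomputable section

open scoped QuadraticAlgebra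

namespace FA.CM.Cubic

/-- The Eisenstein integers. -/
abbrev EInt : Type := QuadraticAlgebra ℤ (-1) (-1)

theorem norm_eq (α : EInt) : α.norm = α.re ^ 2 - α.re * α.im + α.im ^ 2 := by
  rw [QuadraticAlgebra.norm_def]; ring

theorem norm_eq_zero' {α : EInt} : α.norm = 0 ↔ α = 0 := by
  refine ⟨fun h => ?_, fun h => by rw [h]; exact QuadraticAlgebra.norm_zero⟩
  rw [norm_eq] at h
  have him : α.im = 0 := by
    by_contra him
    nlinarith [sq_nonneg (2 * α.re - α.im), sq_pos_of_ne_zero him]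
  rw [him] at h
  exact QuadraticAlgebra.ext (by simpa using h) (by simpa using him)

theorem re_star' (α : EInt) : (star α).re = α.re - α.im := by
  rw [QuadraticAlgebra.re_star]; ring

theorem norm_mul_star (α : EInt) : α * star α = (α.norm : EInt) := by
  ext <;> simp [norm_eq, pow_two] <;> ring

instance : NoZeroDivisors EInt where
  eq_zero_or_eq_zero_of_mul_eq_zero {a b} h := by
    have := congrArg QuadraticAlgebra.norm h
    rw [map_mul, QuadraticAlgebra.norm_zero, mul_eq_zero] at this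
    exact this.imp norm_eq_zero'.mp norm_eq_zero'.mp

instance : IsDomain EInt := NoZeroDivisors.to_isDomain _

variable {K : Type*} [CommRing K] {j : K}

/-- The homomorphism `ω ↦ j`. -/
def evalW (hj : j ^ 2 + j + 1 = 0) : EInt →+* K :=
  (QuadraticAlgebra.lift ⟨j, by simp only [zsmul_eq_mul]; push_cast; linear_combination hj⟩ :
    EInt →ₐ[ℤ] K).toRingHom

theorem evalW_apply (hj : j ^ 2 + j + 1 = 0) (α : EInt) :
    evalW hj α = (α.re : K) + (α.im : K) * j := by
  simp [evalW, QuadraticAlgebra.lift]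

theorem sq_add_add_conj (hj : j ^ 2 + j + 1 = 0) : (-1 - j) ^ 2 + (-1 - j) + 1 = 0 := by
  linear_combination hj

theorem evalW_star (hj : j ^ 2 + j + 1 = 0) (α : EInt) :
    evalW hj (star α) = evalW (sq_add_add_conj hj) α := by
  rw [evalW_apply, evalW_apply, re_star', QuadraticAlgebra.im_star]
  push_cast
  ring

/-- `0` and the cube roots of unity. -/
def IsCU (u : EInt) : Prop := u = 0 ∨ u = 1 ∨ u = ⟨0, 1⟩ ∨ u = ⟨-1, -1⟩

theorem IsCU.mul {u v : EInt} (hu : IsCU u) (hv : IsCU v) : IsCU (u * v) := by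
  rcases hu with rfl | rfl | rfl | rfl <;> rcases hv with rfl | rfl | rfl | rfl <;>
    simp [IsCU, QuadraticAlgebra.ext_iff]

theorem IsCU.star_eq {u : EInt} (hu : IsCU u) : star u = u ^ 2 := by
  rcases hu with rfl | rfl | rfl | rfl <;> ext <;> simp [pow_two]

theorem IsCU.pow {u : EInt} (hu : IsCU u) : ∀ n : ℕ, IsCU (u ^ n)
  | 0 => by rw [pow_zero]; exact Or.inr (Or.inl rfl)
  | n + 1 => by rw [pow_succ]; exact (hu.pow n).mul hu

theorem IsCU.star {u : EInt} (hu : IsCU u) : IsCU (Star.star u) := hu.star_eq ▸ hu.pow 2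

variable {F : Type*} [Field F] {w : F}

open scoped Classical in
/-- The inverse of `evalW` on `0` and the cube roots of unity. -/
def unitLift (w x : F) : EInt :=
  if x = 1 then 1 else if x = w then ⟨0, 1⟩ else if x = -1 - w then ⟨-1, -1⟩ else 0

theorem isCU_unitLift (w x : F) : IsCU (unitLift w x) := by
  unfold unitLift IsCU; split_ifs <;> simp

theorem evalW_unitLift (hw : w ^ 2 + w + 1 = 0) {x : F} (hx : x ^ 3 = 1 ∨ x = 0) :
    evalW hw (unitLift w x) = x := by
  unfold unitLift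
  split_ifs with h1 h2 h3 <;> simp only [evalW_apply]
  · simp [h1]
  · simp [h2]
  · subst h3; simp; ring
  · rcases hx with h | h
    · exfalso
      have e : (x - 1) * ((x - w) * (x - (-1 - w))) = 0 := by
        linear_combination h - (x - 1) * hw
      rcases mul_eq_zero.mp e with e | e
      · exact h1 (sub_eq_zero.mp e)
      rcases mul_eq_zero.mp e with e | e
      exacts [h2 (sub_eq_zero.mp e), h3 (sub_eq_zero.mp e)]
    · simp [h]

theorem one_ne_of_root (hw : w ^ 2 + w + 1 = 0) (h3 : (3 : F) ≠ 0) : w ≠ 1 := fun e => by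
  rw [e] at hw; exact h3 (by linear_combination hw)

theorem ne_zero_of_root (hw : w ^ 2 + w + 1 = 0) : w ≠ 0 := fun e => by simp [e] at hw

theorem cube_of_root {R : Type*} [CommRing R] {x : R} (hx : x ^ 2 + x + 1 = 0) : x ^ 3 = 1 := by
  linear_combination (x - 1) * hx

theorem unitLift_zero (hw : w ^ 2 + w + 1 = 0) : unitLift w (0 : F) = 0 := by
  have hw0 := ne_zero_of_root hw
  have : (0 : F) ≠ -1 - w := fun e => ne_zero_of_root (sq_add_add_conj hw) e.symm
  simp [unitLift, hw0.symm, this]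

theorem unitLift_evalW (hw : w ^ 2 + w + 1 = 0) (h3 : (3 : F) ≠ 0) {u : EInt} (hu : IsCU u) :
    unitLift w (evalW hw u) = u := by
  have h1 := one_ne_of_root hw h3
  have h2 : (-1 : F) - w ≠ 1 := one_ne_of_root (sq_add_add_conj hw) h3
  have h4 : (-1 : F) - w ≠ w := fun e => h3 (by
    linear_combination (2 * w + 1) * e + 4 * hw)
  rcases hu with rfl | rfl | rfl | rfl
  · rw [map_zero, unitLift_zero hw]
  · simp [unitLift]
  · simp [unitLift, evalW_apply, h1]
  · rw [show evalW hw ⟨-1, -1⟩ = -1 - w by simp [evalW_apply]; ring]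
    simp [unitLift, h2, h4]

theorem evalW_injOn (hw : w ^ 2 + w + 1 = 0) (h3 : (3 : F) ≠ 0) {u v : EInt} (hu : IsCU u)
    (hv : IsCU v) (h : evalW hw u = evalW hw v) : u = v := by
  rw [← unitLift_evalW hw h3 hu, h, unitLift_evalW hw h3 hv]

theorem unitLift_mul (hw : w ^ 2 + w + 1 = 0) (h3 : (3 : F) ≠ 0) {x y : F}
    (hx : x ^ 3 = 1 ∨ x = 0) (hy : y ^ 3 = 1 ∨ y = 0) :
    unitLift w (x * y) = unitLift w x * unitLift w y := by
  conv_lhs => rw [← evalW_unitLift hw hx, ← evalW_unitLift hw hy, ← map_mul]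
  rw [unitLift_evalW hw h3 ((isCU_unitLift _ _).mul (isCU_unitLift _ _))]

/-- The primitive cube root of unity in `ℂ`. -/
def cubeRoot : ℂ := ⟨-(1 / 2), Real.sqrt 3 / 2⟩

theorem cubeRoot_spec : cubeRoot ^ 2 + cubeRoot + 1 = 0 := by
  have h := Real.mul_self_sqrt (show (0 : ℝ) ≤ 3 by norm_num)
  apply Complex.ext <;> simp [cubeRoot, pow_two] <;> linarith

/-- The complex embedding. -/
def toC : EInt →+* ℂ := evalW cubeRoot_spec

theorem two_mul_toC (α : EInt) :
    2 * toC α = ((2 * α.re - α.im : ℤ) : ℂ) + Complex.I * (Real.sqrt 3 : ℝ) * (α.im : ℂ) := by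
  rw [toC, evalW_apply]
  apply Complex.ext <;> simp [cubeRoot] <;> ring

theorem toC_injective : Function.Injective toC := by
  refine (injective_iff_map_eq_zero _).mpr fun α h => ?_
  have h2 := two_mul_toC α
  rw [h, mul_zero] at h2
  have him := congrArg Complex.im h2
  have hre := congrArg Complex.re h2
  simp [eq_comm (a := (0 : ℝ))] at him hre
  rw [him, Int.cast_zero, sub_zero] at hre
  exact QuadraticAlgebra.ext (by simpa using hre) (by simpa using him)

theorem toC_star (α : EInt) : toC (star α) = starRingEnd ℂ (toC α) := by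
  rw [toC, evalW_star, evalW_apply, evalW_apply]
  apply Complex.ext <;> simp [cubeRoot]; ring

/-- If `α / 3` is an algebraic integer then `3` divides `α`. -/
theorem three_dvd_of_isIntegral {α : EInt} (h : IsIntegral ℤ (toC α / 3)) :
    3 ∣ α.re ∧ 3 ∣ α.im := by
  have hc : IsIntegral ℤ (starRingEnd ℂ (toC α / 3)) := h.map (starRingEnd ℂ).toIntAlgHom
  have h2 : IsIntegral ℤ (algebraMap ℚ ℂ ((α.norm : ℚ) / 9)) := by
    have := h.mul hc
    rw [map_div₀, ← toC_star, map_ofNat, div_mul_div_comm, ← map_mul, norm_mul_star,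
      map_intCast] at this
    rw [eq_ratCast]
    push_cast
    norm_num at this ⊢
    exact this
  rw [isIntegral_algebraMap_iff (algebraMap ℚ ℂ).injective,
    IsIntegrallyClosed.isIntegral_iff] at h2
  obtain ⟨k, hk⟩ := h2
  have hk' : α.norm = 9 * k := by
    have : (α.norm : ℚ) = 9 * (k : ℚ) := by rw [show (k : ℚ) = (α.norm : ℚ) / 9 from hk]; ring
    exact_mod_cast this
  rw [norm_eq] at hk'
  have h3 : Prime (3 : ℤ) := Nat.prime_iff_prime_int.mp Nat.prime_three
  obtain ⟨s, hs⟩ : 3 ∣ α.re + α.im :=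
    h3.dvd_of_dvd_pow (n := 2) ⟨3 * k + α.re * α.im, by linear_combination hk'⟩
  have h4 : α.re ^ 2 - α.re * α.im + α.im ^ 2 = 9 * s ^ 2 - 3 * (α.re * α.im) := by
    linear_combination (α.re + α.im + 3 * s) * hs
  have h5 : 3 ∣ α.re * α.im := ⟨s ^ 2 - k, by linarith⟩
  rcases h3.dvd_mul.mp h5 with h | h <;> omega

/-- `α ≡ 1` modulo `3`. -/
def IsPrimary (α : EInt) : Prop := α.re % 3 = 1 ∧ α.im % 3 = 0

theorem IsPrimary.exists_eq {α : EInt} (h : IsPrimary α) :
    ∃ s t : ℤ, α.re = 3 * s + 1 ∧ α.im = 3 * t :=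
  ⟨α.re / 3, α.im / 3, by have := h.1; omega, by have := h.2; omega⟩

theorem IsPrimary.mul {α β : EInt} (hα : IsPrimary α) (hβ : IsPrimary β) : IsPrimary (α * β) := by
  obtain ⟨s, t, e1, e2⟩ := hα.exists_eq
  obtain ⟨s', t', e3, e4⟩ := hβ.exists_eq
  simp only [IsPrimary, QuadraticAlgebra.re_mul, QuadraticAlgebra.im_mul, e1, e2, e3, e4]
  constructor <;> ring_nf <;> omega

theorem IsPrimary.of_mul {α β : EInt} (hα : IsPrimary α) (h : IsPrimary (α * β)) :
    IsPrimary β := by
  obtain ⟨s, t, e1, e2⟩ := hα.exists_eq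
  obtain ⟨h1, h2⟩ := h
  simp only [QuadraticAlgebra.re_mul, QuadraticAlgebra.im_mul, e1, e2] at h1 h2
  ring_nf at h1 h2
  constructor <;> omega

theorem IsPrimary.ne_zero {α : EInt} (h : IsPrimary α) : α ≠ 0 := fun e => by
  simp [IsPrimary, e] at h

theorem IsPrimary.norm_mod_three {α : EInt} (h : IsPrimary α) : α.norm % 3 = 1 := by
  obtain ⟨s, t, e1, e2⟩ := h.exists_eq
  rw [norm_eq, e1, e2]
  ring_nf
  omega

theorem isPrimary_intCast {a : ℤ} (ha : a % 3 = 1) : IsPrimary (a : EInt) := by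
  simp [IsPrimary, ha]

end FA.CM.Cubic

end
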