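import Fermat.Agent.CM.Cubic.Coeff
import Fermat.Agent.CM.Common
import Fermat.Agent.CM.CongruentCurves

/-!
# The L-function of `y² + c y = x³`

For `c` free of cubes the curve and its quadratic twists have additive reduction at the primes
dividing `3 c`, and all coefficients of the L-function of the curve are the sums `∑ φ (α) α` over
`α ≡ 1 (mod 3)` for a weight `φ` of `c²`.
-/

set_option autoImplicit false

noncomputable section

open WeierstrassCurve
open scoped QuadraticAlgebra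

namespace FA.CM.Cubic

theorem c₄_c₆_Δ {K : Type*} [Field K] [CharZero K] (E : WeierstrassCurve K) {c z : K}
    (h4 : E.c₄ = 0) (h6 : E.c₆ = -216 * c ^ 2 * z ^ 3) : E.Δ = -27 * c ^ 4 * z ^ 6 := by
  refine mul_left_cancel₀ (show (1728 : K) ≠ 0 by norm_num) ?_
  rw [E.c_relation, h4, h6]
  ring

/-- The coefficients at the powers of a prime dividing `3 c`. -/
theorem LFunction_prime_pow_of_dvd (E : WeierstrassCurve ℚ) {c : ℤ} {z : ℚ}
    (hfree : ∀ q : ℕ, q.Prime → ¬ (q : ℤ) ^ 3 ∣ c) (hz : z ≠ 0) (h4 : E.c₄ = 0)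
    (h6 : E.c₆ = -216 * (c : ℚ) ^ 2 * z ^ 3) {p : ℕ} (hp : p.Prime)
    (hpc : p = 3 ∨ (p : ℤ) ∣ c) (r : ℕ) : E.LFunction (p ^ (r + 1)) = 0 := by
  have hq := Nat.prime_iff_prime_int.mp hp
  obtain ⟨i, hi, u, hu, hcu⟩ : ∃ i : ℕ, i ≤ 2 ∧ ∃ u : ℤ, ¬ (p : ℤ) ∣ u ∧ c = (p : ℤ) ^ i * u := by
    by_cases h1 : (p : ℤ) ∣ c
    · obtain ⟨a, rfl⟩ := h1
      by_cases h2 : (p : ℤ) ∣ a
      · obtain ⟨b, rfl⟩ := h2
        exact ⟨2, le_rfl, b, fun ⟨d, hd⟩ => hfree p hp ⟨d, by rw [hd]; ring⟩, by ring⟩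
      · exact ⟨1, by norm_num, a, h2, by ring⟩
    · exact ⟨0, by norm_num, c, h1, by simp⟩
  obtain ⟨k, hk, m, hm, hkm⟩ : ∃ k : ℕ, k % 6 ≠ 0 ∧ ∃ m : ℤ, ¬ (p : ℤ) ∣ m ∧
      -27 * c ^ 4 = (p : ℤ) ^ k * m := by
    have hu4 : ¬ (p : ℤ) ∣ u ^ 4 := fun h => hu (hq.dvd_of_dvd_pow h)
    rcases eq_or_ne p 3 with h3 | h3
    · refine ⟨3 + 4 * i, by omega, -u ^ 4, fun h => hu4 (dvd_neg.mp h), ?_⟩
      rw [hcu, h3]; push_cast; ring
    · refine ⟨4 * i, ?_, -27 * u ^ 4, fun h => ?_, by rw [hcu]; ring⟩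
      · have : i ≠ 0 := fun e => by
          rw [e, pow_zero, one_mul] at hcu
          exact hu (hcu ▸ hpc.resolve_left h3)
        omega
      · rcases hq.dvd_mul.mp h with h | h
        · exact h3 ((Nat.prime_dvd_prime_iff_eq hp Nat.prime_three).mp (hp.dvd_of_dvd_pow
            (n := 3) (Int.natCast_dvd_natCast.mp (by simpa using dvd_neg.mp h))))
        · exact hu4 h
  exact LFunction_prime_pow_of_exponents hp E hz (A := 0) (β := k) hm (fun h => hk (by omega)) (Or.inl rfl)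
    (by rw [h4]; simp)
    (by rw [c₄_c₆_Δ E h4 h6,
          show (-27 : ℚ) * (c : ℚ) ^ 4 * z ^ 6 = z ^ 6 * (((-27 * c ^ 4 : ℤ)) : ℚ) by
            push_cast; ring, hkm]
        push_cast; ring) r

theorem isIntegralModelOf_jZeroModel (c : ℤ) :
    (jZeroModel c).IsIntegralModelOf (jZeroModel (c : ℚ)) :=
  ⟨1, by rw [one_smul, jZeroModel_map]; rfl⟩

theorem good_jZeroModel {c : ℤ} {p : ℕ} (hp : p.Prime) (h : ¬ (p = 3 ∨ (p : ℤ) ∣ c)) :
    ¬ (p : ℤ) ∣ (jZeroModel c).Δ := by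
  rw [not_or] at h
  have hq := Nat.prime_iff_prime_int.mp hp
  rw [jZeroModel_Δ, neg_mul, dvd_neg, hq.dvd_mul, not_or]
  refine ⟨fun h' => h.1 ?_, fun h' => h.2 (hq.dvd_of_dvd_pow h')⟩
  exact (Nat.prime_dvd_prime_iff_eq hp Nat.prime_three).mp
    (hp.dvd_of_dvd_pow (n := 3) (Int.natCast_dvd_natCast.mp (by simpa using h')))

/-- **All coefficients of the L-function.** -/
theorem LFunction_eq_primarySum {c : ℤ} (hfree : ∀ q : ℕ, q.Prime → ¬ (q : ℤ) ^ 3 ∣ c)
    {φ : EInt → EInt} (hφ : IsWeight (c ^ 2) φ) (n : ℕ) :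
    ((jZeroModel (c : ℚ)).LFunction n : EInt) = primarySum φ n := by
  set E : WeierstrassCurve ℚ := jZeroModel (c : ℚ) with hE
  set W : WeierstrassCurve ℤ := jZeroModel c with hW
  have hL := FA.Root.isMultiplicative_LFunction E
  have hWE : W.IsIntegralModelOf E := isIntegralModelOf_jZeroModel c
  have hbad : ∀ p : ℕ, p.Prime → (p = 3 ∨ (p : ℤ) ∣ c) → ∀ r, E.LFunction (p ^ (r + 1)) = 0 :=
    fun p hp h r => LFunction_prime_pow_of_dvd E (c := c) (z := 1) hfree one_ne_zero (jZeroModel_c₄ _)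
      (by rw [hE, jZeroModel_c₆]; ring) hp h r
  -- the recursion of the sums
  have hrec : ∀ p : ℕ, p.Prime → ∀ m, primarySum φ (p * m) +
      (if p ∣ m then (if p = 3 ∨ (p : ℤ) ∣ c then 0 else (p : EInt)) * primarySum φ (m / p) else 0) =
      (if p = 3 ∨ (p : ℤ) ∣ c then 0 else (W.apOfModel p : EInt)) * primarySum φ m := by
    intro p hp m
    have := Fact.mk hp
    by_cases hb : p = 3 ∨ (p : ℤ) ∣ c
    · simp only [if_pos hb, zero_mul, ite_self, add_zero]
      exact primarySum_bad hφ hp (hb.imp id fun h => dvd_pow h two_ne_zero) m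
    simp only [if_neg hb]
    rw [not_or] at hb
    obtain ⟨hp3, hpc⟩ := hb
    have hpc2 : ¬ (p : ℤ) ∣ c ^ 2 := fun h =>
      hpc ((Nat.prime_iff_prime_int.mp hp).dvd_of_dvd_pow h)
    have hc' : (c : ZMod p) ≠ 0 := by rwa [Ne, ZMod.intCast_zmod_eq_zero_iff_dvd]
    rcases (show p % 3 = 1 ∨ p % 3 = 2 by
      have : ¬ 3 ∣ p := fun h => hp3 ((Nat.prime_dvd_prime_iff_eq Nat.prime_three hp).mp h).symm
      omega) with h | h
    · obtain ⟨j, hj⟩ : ∃ j : ZMod p, j ^ 2 + j + 1 = 0 := by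
        obtain ⟨u, hu⟩ := exists_prime_orderOf_dvd_card (G := (ZMod p)ˣ) 3 (by
          rw [ZMod.card_units]; omega)
        refine ⟨(u : ZMod p), ?_⟩
        have h1 : ((u : ZMod p) - 1) * ((u : ZMod p) ^ 2 + (u : ZMod p) + 1) = 0 := by
          have h3 : ((u : ZMod p)) ^ 3 = 1 := by
            rw [← Units.val_pow_eq_pow_val, ← hu, pow_orderOf_eq_one, Units.val_one]
          linear_combination h3
        refine (mul_eq_zero.mp h1).resolve_left fun e => ?_
        rw [sub_eq_zero, Units.val_eq_one] at e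
        rw [e, orderOf_one] at hu
        omega
      rw [hW, apOfModel_jZeroModel_one hj hp3 hc', primarySum_split hφ hj hp3 hpc2, Int.cast_pow]
    · rw [hW, apOfModel_jZeroModel_two h hc', Int.cast_zero, zero_mul,
        primarySum_inert hφ h hpc2]
  have h0 : primarySum φ 0 = 0 := by rw [primarySum, primarySet_zero, Finset.sum_empty]
  have hone := primarySum_one hφ
  induction n using Nat.recOnPosPrimePosCoprime with
  | zero => rw [ArithmeticFunction.map_zero, Int.cast_zero, h0]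
  | one => rw [hL.map_one, Int.cast_one, hone]
  | coprime a b _ _ hab iha ihb =>
    rw [hL.map_mul_of_coprime hab, Int.cast_mul, iha, ihb]
    refine toC_injective ?_
    rw [map_mul]
    refine (FA.Deform.mul_of_coprime_of_rec
      (c := fun k => toC (primarySum φ k))
      (e := fun p => toC (if p = 3 ∨ (p : ℤ) ∣ c then 0 else (p : EInt)))
      (lam := fun p => toC (if p = 3 ∨ (p : ℤ) ∣ c then 0 else (W.apOfModel p : EInt)))
      (by rw [h0, map_zero]) (by rw [hone, map_one]) (fun p hp k => ?_) a b hab).symm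
    have := congrArg toC (hrec p hp k)
    rw [map_add, map_mul, apply_ite toC (p ∣ k), map_mul, map_zero, mul_comm p k] at this
    exact this
  | prime_pow p k hp hk =>
    clear hk
    induction k using Nat.twoStepInduction with
    | zero => rw [pow_zero, hL.map_one, Int.cast_one, hone]
    | one =>
      have h := hrec p hp 1
      rw [if_neg hp.not_dvd_one, add_zero, mul_one, hone, mul_one] at h
      rw [pow_one, h]
      split_ifs with hb
      · rw [show E.LFunction p = 0 by simpa using hbad p hp hb 0, Int.cast_zero]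
      · rw [FA.Root.LFunction_apply_prime E W hWE hp (good_jZeroModel hp hb)]
    | more r ih₀ ih₁ =>
      have h := hrec p hp (p ^ (r + 1))
      rw [if_pos (dvd_pow_self p (Nat.succ_ne_zero r)), ← pow_succ',
        show p ^ (r + 1) / p = p ^ r by rw [pow_succ, Nat.mul_div_cancel _ hp.pos]] at h
      rw [eq_sub_of_add_eq h, ← ih₀, ← ih₁]
      split_ifs with hb
      · rw [hbad p hp hb, Int.cast_zero, zero_mul, zero_mul, sub_zero]
      · rw [FA.Root.LFunction_apply_prime_pow_good E W hWE hp (good_jZeroModel hp hb)]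
        push_cast
        ring

/-- The invariants of a curve with `c₄ = 0`. -/
theorem exists_invariants_of_c₄ (E : WeierstrassCurve ℚ) (h6 : E.c₆ ≠ 0) :
    ∃ (c : ℤ) (z : ℚ), c ≠ 0 ∧ (∀ q : ℕ, q.Prime → ¬ (q : ℤ) ^ 3 ∣ c) ∧ z ≠ 0 ∧
      E.c₆ = -216 * (c : ℚ) ^ 2 * z ^ 3 := by
  suffices h : ∀ n : ℕ, ∀ c : ℤ, c.natAbs = n → c ≠ 0 → ∀ z : ℚ, z ≠ 0 →
      E.c₆ = -216 * (c : ℚ) ^ 2 * z ^ 3 → ∃ (c : ℤ) (z : ℚ), c ≠ 0 ∧
        (∀ q : ℕ, q.Prime → ¬ (q : ℤ) ^ 3 ∣ c) ∧ z ≠ 0 ∧ E.c₆ = -216 * (c : ℚ) ^ 2 * z ^ 3 by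
    set r := E.c₆ / -216 with hr
    have hr0 : r ≠ 0 := div_ne_zero h6 (by norm_num)
    have hd : (r.den : ℚ) ≠ 0 := Nat.cast_ne_zero.mpr r.den_nz
    have hn : (r.num : ℚ) ≠ 0 := Int.cast_ne_zero.mpr (Rat.num_ne_zero.mpr hr0)
    -- `r = (1 / r)² r³` and `1 / r = (num² den) / num³`
    refine h _ (r.num ^ 2 * r.den) rfl (mul_ne_zero (pow_ne_zero _ (Rat.num_ne_zero.mpr hr0))
      (by exact_mod_cast r.den_nz)) (r / (r.num : ℚ) ^ 2)
      (div_ne_zero hr0 (pow_ne_zero _ hn)) ?_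
    rw [show E.c₆ = -216 * r by rw [hr]; ring]
    push_cast
    field_simp
    rw [← Rat.mul_den_eq_num]
    ring
  intro n
  induction n using Nat.strong_induction_on with
  | _ n ih =>
    intro c hn hc z hz h
    by_cases hq : ∀ q : ℕ, q.Prime → ¬ (q : ℤ) ^ 3 ∣ c
    · exact ⟨c, z, hc, hq, hz, h⟩
    push Not at hq
    obtain ⟨q, hq, a, rfl⟩ := hq
    refine ih a.natAbs ?_ a rfl (right_ne_zero_of_mul hc) (z * (q : ℚ) ^ 2)
      (mul_ne_zero hz (pow_ne_zero _ (Nat.cast_ne_zero.mpr hq.ne_zero)))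
      (by rw [h]; push_cast; ring)
    rw [← hn, Int.natAbs_mul, Int.natAbs_pow, Int.natAbs_natCast]
    exact lt_mul_of_one_lt_left (Int.natAbs_pos.mpr (right_ne_zero_of_mul hc))
      (Nat.one_lt_pow three_ne_zero hq.one_lt)

end FA.CM.Cubic

end
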