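import Fermat.Agent.CM.Cubic.Weight
import Fermat.Agent.CM.Cubic.LFunction
import Fermat.Agent.CM.Twist27
import Fermat.Agent.Frob.Det

/-!
# Every elliptic curve with `j = 0` is modular

All coefficients of the L-function are those of a quadratic twist of the theta series of `ℤ[ω]`
with a cubic Grössencharakter, so the L-series is entire.
-/

set_option autoImplicit false

noncomputable section

open WeierstrassCurve CongruenceSubgroup
open FA.Period FA.Twists

namespace FA.CM.Cubic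

/-- The coefficients of the twist by the class `D`. -/
theorem LFunction_twist_jZero (E : WeierstrassCurve ℚ) {c : ℤ} {t : ℚ} {D : ℤ}
    (hfree : ∀ q : ℕ, q.Prime → ¬ (q : ℤ) ^ 3 ∣ c) (hc : c ≠ 0) (hD : Squarefree D) (ht : t ≠ 0)
    (h4 : E.c₄ = 0) (h6 : E.c₆ = -216 * (c : ℚ) ^ 2 * (t ^ 2 * D) ^ 3) {q : ℕ}
    (ψ : DirichletCharacter ℂ q)
    (hψ : ∀ l : ℕ, l.Prime → ψ (l : ZMod q) = (twistSign D l : ℂ)) (k : ℕ) :
    (E.LFunction k : ℂ) = ψ (k : ZMod q) * ((jZeroModel (c : ℚ)).LFunction k : ℂ) := by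
  set F : WeierstrassCurve ℚ := jZeroModel (c : ℚ) with hF'
  have hE := FA.Root.isMultiplicative_LFunction E
  have hF := FA.Root.isMultiplicative_LFunction F
  induction k using Nat.recOnPosPrimePosCoprime with
  | prime_pow l r hl hr =>
    by_cases hb : l = 3 ∨ (l : ℤ) ∣ c
    · obtain ⟨r, rfl⟩ : ∃ r', r = r' + 1 := ⟨r - 1, by omega⟩
      rw [LFunction_prime_pow_of_dvd E hfree
          (mul_ne_zero (pow_ne_zero 2 ht) (Int.cast_ne_zero.mpr hD.ne_zero)) h4 h6 hl hb,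
        LFunction_prime_pow_of_dvd F (c := c) (z := 1) hfree one_ne_zero (jZeroModel_c₄ _)
          (by rw [hF', jZeroModel_c₆]; ring) hl hb]
      simp
    rw [LFunction_twist_prime_pow (W := jZeroModel c) (F := F) (D := D)
      (isIntegralModelOf_jZeroModel c)
      (by rw [jZeroModel_Δ]; exact mul_ne_zero (by norm_num) (pow_ne_zero 4 hc)) hD ht
      (by rw [h4, jZeroModel_c₄]; simp)
      (by rw [h6, jZeroModel_c₆]; push_cast; ring)
      hl (fun h => absurd h (good_jZeroModel hl hb)) r,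
      show ((l ^ r : ℕ) : ZMod q) = (l : ZMod q) ^ r from Nat.cast_pow l r, map_pow ψ, hψ l hl]
    push_cast
    rfl
  | zero => simp
  | one => rw [hE.map_one, hF.map_one, Nat.cast_one, map_one, Int.cast_one, one_mul]
  | coprime a b _ _ hab iha ihb =>
    rw [hE.map_mul_of_coprime hab, hF.map_mul_of_coprime hab, Int.cast_mul, Int.cast_mul,
      Nat.cast_mul, map_mul, iha, ihb]
    ring

/-- **The form of a curve with `j = 0`**, with the primes of its level and an integral model. -/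
theorem exists_jZero_form (E : WeierstrassCurve ℚ) [E.IsElliptic] (h4 : E.c₄ = 0) :
    ∃ (W : WeierstrassCurve ℤ) (N : ℕ) (f : CuspForm (Gamma0 N) 2), W.IsIntegralModelOf E ∧ 0 < N ∧
      (∀ p : ℕ, p.Prime → p ∣ N → p = 2 ∨ ∀ r, E.LFunction (p ^ (r + 1)) = 0) ∧
      (∀ p : ℕ, p.Prime → (p : ℤ) ∣ W.Δ → p ∣ N) ∧
      ∀ k : ℕ, ModularFormClass.qCoeff f k = (E.LFunction k : ℂ) := by
  have h6 : E.c₆ ≠ 0 := fun h => E.isUnit_Δ.ne_zero (by
    have := E.c_relation; rw [h4, h] at this; linarith)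
  obtain ⟨c, z, hc, hfree, hz, hc6⟩ := exists_invariants_of_c₄ E h6
  obtain ⟨D, t, hD, ht, rfl⟩ := exists_squarefree_mul_sq hz
  obtain ⟨q, ψ, hqD, hq, hsq, -, hval⟩ := exists_twistSign_char hD
  obtain ⟨φ, hφ⟩ := exists_isWeight (pow_ne_zero 2 hc)
  obtain ⟨N, f, hN, hNp, hpN', hf⟩ := exists_primarySum_form (pow_ne_zero 2 hc) hφ
  have : NeZero q := ⟨hq.ne'⟩
  have : NeZero N := ⟨hN.ne'⟩
  have hfL : ∀ k, ModularFormClass.qCoeff f k = ((jZeroModel (c : ℚ)).LFunction k : ℂ) := fun k => by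
    rw [hf, ← LFunction_eq_primarySum hfree hφ, map_intCast]
  have hL := LFunction_twist_jZero E hfree hc hD ht h4 hc6 ψ hval
  set k₀ : ℤ := 16 * c ^ 2 * D ^ 3
  set W : WeierstrassCurve ℤ := ⟨0, 0, 0, 0, k₀⟩ with hW
  have hWE : W.IsIntegralModelOf E := isIntegralModelOf_of_invariants (w := 2 / t)
    (div_ne_zero two_ne_zero ht) (by rw [h4]; simp [hW, c₄, b₂, b₄])
    (by rw [hc6]; simp [hW, k₀, c₆, b₂, b₄, b₆]; field_simp; ring)
  have hWΔ : W.Δ = -(2 ^ 12 * 3 ^ 3 * (c ^ 4 * D ^ 6)) := by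
    simp only [hW, k₀, WeierstrassCurve.Δ, b₂, b₄, b₆, b₈]; ring
  refine ⟨W, N * q ^ 2, toCuspForm' (twistTwo ψ ⇑f) (twistTwo_mem (coe_mem_cuspForms f) hsq),
    hWE, Nat.mul_pos hN (pow_pos hq 2), fun p hp hpN => ?_, fun p hp hpΔ => ?_, fun k => ?_⟩
  · rcases hp.dvd_mul.mp hpN with h | h
    · rcases hNp p hp h with h | h
      · exact Or.inl h
      · exact Or.inr fun r => LFunction_prime_pow_of_dvd E hfree hz h4 hc6 hp
          (h.imp id fun h => (Nat.prime_iff_prime_int.mp hp).dvd_of_dvd_pow h) r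
    · refine Or.inr fun r => ?_
      have h0 : ψ (((p ^ (r + 1) : ℕ)) : ZMod q) = 0 := by
        refine MulChar.map_nonunit ψ fun hu => ?_
        rw [ZMod.isUnit_iff_coprime] at hu
        exact hp.ne_one (Nat.eq_one_of_dvd_coprimes hu (dvd_pow_self p (Nat.succ_ne_zero r))
          (hp.dvd_of_dvd_pow h))
      have := hL (p ^ (r + 1))
      rw [h0, zero_mul] at this
      exact_mod_cast this
  · have hq' := Nat.prime_iff_prime_int.mp hp
    rw [hWΔ, dvd_neg, hq'.dvd_mul, hq'.dvd_mul, hq'.dvd_mul] at hpΔ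
    rcases hpΔ with (h | h) | (h | h)
    · refine dvd_mul_of_dvd_left (hpN' p hp (Or.inl ?_)) _
      exact (Nat.prime_dvd_prime_iff_eq hp Nat.prime_two).mp
        (Int.natCast_dvd_natCast.mp (by simpa using hq'.dvd_of_dvd_pow h))
    · refine dvd_mul_of_dvd_left (hpN' p hp (Or.inr (Or.inl ?_))) _
      exact (Nat.prime_dvd_prime_iff_eq hp Nat.prime_three).mp
        (Int.natCast_dvd_natCast.mp (by simpa using hq'.dvd_of_dvd_pow h))
    · exact dvd_mul_of_dvd_left (hpN' p hp (Or.inr (Or.inr (dvd_pow (hq'.dvd_of_dvd_pow h) two_ne_zero)))) _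
    · refine dvd_mul_of_dvd_right (dvd_pow ?_ two_ne_zero) _
      have hd : p ∣ D.natAbs := Int.natCast_dvd.mp (hq'.dvd_of_dvd_pow h)
      rw [hqD]
      split_ifs
      exacts [hd, hd.mul_left 4]
  · rw [hL k, ← hfL]
    exact qExp_twistTwo (coe_mem_cuspForms f) hsq k

/-- **Deprived at `2` the form is an eigenform.** -/
theorem exists_jZero_eigenform (E : WeierstrassCurve ℚ) [E.IsElliptic] (h4 : E.c₄ = 0) :
    ∃ W : WeierstrassCurve ℤ, W.IsIntegralModelOf E ∧ W.IsModularModel := by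
  obtain ⟨W, N, f, hWE, hN, hNp, hΔN, hf⟩ := exists_jZero_form E h4
  have : NeZero N := ⟨hN.ne'⟩
  have : NeZero (2 : ℕ) := ⟨two_ne_zero⟩
  have hsq : ∀ u : (ZMod 2)ˣ, (1 : DirichletCharacter ℂ 2) u * (1 : DirichletCharacter ℂ 2) u = 1 :=
    fun u => by rw [MulChar.one_apply_coe, one_mul]
  set ψ : DirichletCharacter ℂ 2 := 1
  set g : CuspForm (Gamma0 (N * 2 ^ 2)) 2 :=
    toCuspForm' (twistTwo ψ ⇑f) (twistTwo_mem (coe_mem_cuspForms f) hsq)
  have hg : ∀ n : ℕ, ModularFormClass.qCoeff g n = ψ (n : ZMod 2) * (E.LFunction n : ℂ) := fun n => by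
    rw [← hf]
    exact qExp_twistTwo (coe_mem_cuspForms f) hsq n
  have hmul := FA.Root.isMultiplicative_LFunction E
  have hunit : ∀ n : ℕ, ¬ 2 ∣ n → ψ (n : ZMod 2) = 1 := fun n hn => by
    refine MulChar.one_apply ((ZMod.isUnit_iff_coprime n 2).mpr ?_)
    exact Nat.coprime_two_right.mpr (Nat.odd_iff.mpr (by omega))
  have h0 : ∀ p : ℕ, p.Prime → p ∣ N * 2 ^ 2 → ∀ r, ModularFormClass.qCoeff g (p ^ (r + 1)) = 0 := by
    intro p hp hpN r
    rw [hg]
    rcases eq_or_ne p 2 with rfl | hp2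
    · rw [show (((2 ^ (r + 1) : ℕ)) : ZMod 2) = 0 from
        (ZMod.natCast_eq_zero_iff _ 2).mpr (dvd_pow_self 2 (Nat.succ_ne_zero r)),
        MulChar.map_zero, zero_mul]
    · have hpN' : p ∣ N := (hp.dvd_mul.mp hpN).resolve_right fun h =>
        hp2 ((Nat.prime_dvd_prime_iff_eq hp Nat.prime_two).mp (hp.dvd_of_dvd_pow h))
      rw [((hNp p hp hpN').resolve_left hp2) r, Int.cast_zero, mul_zero]
  refine ⟨W, hWE, N * 2 ^ 2, Nat.mul_pos hN (by norm_num), g, ⟨?_, fun a b hab => ?_, fun p r hp h => ?_,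
    fun p r hp h => by rw [h0 p hp h (r + 1), h0 p hp h r, mul_zero]⟩, fun p hp hgood h => ?_⟩
  · rw [hg, hmul.map_one, Nat.cast_one, map_one, Int.cast_one, one_mul]
  · rw [hg, hg, hg, hmul.map_mul_of_coprime hab, Int.cast_mul, Nat.cast_mul, map_mul]
    ring
  · have hp2 : ¬ 2 ∣ p := fun h2 => h (((Nat.prime_dvd_prime_iff_eq Nat.prime_two hp).mp h2) ▸
      dvd_mul_of_dvd_right (dvd_pow_self 2 two_ne_zero) N)
    have hpow : ∀ s : ℕ, ψ (((p ^ s : ℕ)) : ZMod 2) = 1 := fun s =>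
      hunit _ fun h => hp2 (Nat.prime_two.dvd_of_dvd_pow h)
    have hgood : ¬ (p : ℤ) ∣ W.Δ := fun hd => h (dvd_mul_of_dvd_left (hΔN p hp hd) _)
    rw [hg, hg, hg, hg, hpow, hpow, hpow, hunit p hp2, one_mul, one_mul, one_mul, one_mul,
      FA.Root.LFunction_apply_prime_pow_good E W hWE hp hgood,
      FA.Root.LFunction_apply_prime E W hWE hp hgood]
    push_cast
    ring
  · have hp2 : ¬ 2 ∣ p := fun h2 => h (((Nat.prime_dvd_prime_iff_eq Nat.prime_two hp).mp h2) ▸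
      dvd_mul_of_dvd_right (dvd_pow_self 2 two_ne_zero) N)
    rw [hg, hunit p hp2, one_mul, FA.Root.LFunction_apply_prime E W hWE hp hgood]

end FA.CM.Cubic

namespace FA.Summary

open FA.CM.Cubic

/-- **Modularity of every elliptic curve with `j = 0`**: all coefficients of the L-function are
those of a cusp form of weight two on some `Γ₀(N)`. -/
theorem modularity_of_j_eq_zero (E : WeierstrassCurve ℚ) [E.IsElliptic] (hj : E.j = 0) :
    ∃ (N : ℕ) (f : CuspForm (Gamma0 N) 2), 0 < N ∧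
      ∀ n : ℕ, (UpperHalfPlane.qExpansion 1 f).coeff n = (E.LFunction n : ℂ) := by
  obtain ⟨-, N, f, -, hN, -, -, hf⟩ := exists_jZero_form E (E.j_eq_zero_iff.mp hj)
  exact ⟨N, f, hN, hf⟩

/-- Every elliptic curve with `j = 0` is modular. -/
theorem isModular_of_j_eq_zero (E : WeierstrassCurve ℚ) [E.IsElliptic] (hj : E.j = 0) :
    E.IsModular :=
  exists_jZero_eigenform E (E.j_eq_zero_iff.mp hj)

/-- Its L-series is entire. -/
theorem entire_continuation_of_j_eq_zero (E : WeierstrassCurve ℚ) [E.IsElliptic] (hj : E.j = 0) :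
    ∃ g : ℂ → ℂ, Differentiable ℂ g ∧ ∀ s : ℂ, 3 / 2 < s.re → E.LSeries s = g s := by
  obtain ⟨-, N, f, -, hN, -, -, hf⟩ := exists_jZero_form E (E.j_eq_zero_iff.mp hj)
  exact FA.CM.exists_entire_of_qCoeff E hN f hf

/-- The curves `y² = x³ + k`, all `k ≠ 0`, are modular. -/
theorem isModular_mordell (k : ℚ) (hk : k ≠ 0) :
    (⟨0, 0, 0, 0, k⟩ : WeierstrassCurve ℚ).IsModular := by
  have hΔ : (⟨0, 0, 0, 0, k⟩ : WeierstrassCurve ℚ).Δ = -432 * k ^ 2 := by
    simp only [WeierstrassCurve.Δ, b₂, b₄, b₆, b₈]; ring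
  have : (⟨0, 0, 0, 0, k⟩ : WeierstrassCurve ℚ).IsElliptic :=
    ⟨isUnit_iff_ne_zero.mpr (by rw [hΔ]; exact mul_ne_zero (by norm_num) (pow_ne_zero 2 hk))⟩
  exact isModular_of_j_eq_zero _
    ((WeierstrassCurve.j_eq_zero_iff _).mpr (FA.CM.mordell_invariants k).1)

end FA.Summary

end
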