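import Fermat.Agent.CM.Cubic.Sum
import Mathlib.NumberTheory.GaussSum
import Mathlib.RingTheory.RootsOfUnity.AlgebraicallyClosed
import Mathlib.RingTheory.RootsOfUnity.Complex
import Mathlib.FieldTheory.IsAlgClosed.AlgebraicClosure

/-!
# Cubic reciprocity, in the form of periodicity

For every integer `c ≠ 0` there is a function on `ℤ[ω]`, periodic modulo `9 c`, multiplicative on
the elements congruent to `1` modulo `3`, whose value at such a prime `π` is the cubic symbol of `c`
modulo `π`. At a prime `q ≠ 3` the identities `g³ = -p π` and `g^(q²) = χ (q) g` of Gauss sums in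
characteristic `q` give the value; at `3` it is read off from `g³` modulo `9`.
-/

set_option autoImplicit false

noncomputable section

open scoped QuadraticAlgebra

namespace FA.CM.Cubic

/-- The properties of `α ↦ (c / α)₃`. -/
structure IsWeight (c : ℤ) (φ : EInt → EInt) : Prop where
  periodic : ∀ α γ : EInt, φ (α + ((9 * c : ℤ) : EInt) * γ) = φ α
  map_mul : ∀ α β : EInt, IsPrimary α → IsPrimary β → φ (α * β) = φ α * φ β
  map_int : ∀ a : ℤ, a % 3 = 1 → IsCoprime a c → φ a = 1
  map_eq_zero : ∀ α : EInt, IsPrimary α → ∀ q : ℕ, q.Prime → q ≠ 3 → (q : ℤ) ∣ c →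
    (q : ℤ) ∣ α.norm → φ α = 0
  map_primaryPrime : ∀ (p : ℕ) [Fact p.Prime] (j : ZMod p) (hj : j ^ 2 + j + 1 = 0) (hp3 : p ≠ 3),
    (c : ZMod p) ≠ 0 → φ (primaryPrime hj hp3) = cubicChar hj hp3 (c : ZMod p)

theorem IsWeight.mul {c c' : ℤ} {φ φ' : EInt → EInt} (h : IsWeight c φ) (h' : IsWeight c' φ') :
    IsWeight (c * c') fun α => φ α * φ' α where
  periodic α γ := by
    congr 1
    · rw [show ((9 * (c * c') : ℤ) : EInt) * γ = ((9 * c : ℤ) : EInt) * ((c' : EInt) * γ) by
        push_cast; ring, h.periodic]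
    · rw [show ((9 * (c * c') : ℤ) : EInt) * γ = ((9 * c' : ℤ) : EInt) * ((c : EInt) * γ) by
        push_cast; ring, h'.periodic]
  map_mul α β hα hβ := by rw [h.map_mul α β hα hβ, h'.map_mul α β hα hβ]; ring
  map_int a ha hc := by
    rw [h.map_int a ha hc.of_mul_right_left, h'.map_int a ha hc.of_mul_right_right, one_mul]
  map_eq_zero α hα q hq hq3 hd hn := by
    rcases Int.Prime.dvd_mul' hq hd with hd | hd
    · rw [h.map_eq_zero α hα q hq hq3 hd hn, zero_mul]
    · rw [h'.map_eq_zero α hα q hq hq3 hd hn, mul_zero]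
  map_primaryPrime p _ j hj hp3 hd := by
    rw [Int.cast_mul] at hd ⊢
    rw [h.map_primaryPrime p j hj hp3 (left_ne_zero_of_mul hd),
      h'.map_primaryPrime p j hj hp3 (right_ne_zero_of_mul hd), _root_.map_mul]

theorem isWeight_one : IsWeight 1 fun _ => 1 where
  periodic _ _ := rfl
  map_mul _ _ _ _ := (one_mul 1).symm
  map_int _ _ _ := rfl
  map_eq_zero _ _ q hq _ hd _ := absurd (Int.natCast_dvd_natCast.mp hd) hq.not_dvd_one
  map_primaryPrime p _ j hj hp3 _ := by rw [Int.cast_one, map_one]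

theorem isWeight_neg_one : IsWeight (-1) fun _ => 1 where
  periodic _ _ := rfl
  map_mul _ _ _ _ := (one_mul 1).symm
  map_int _ _ _ := rfl
  map_eq_zero _ _ q hq _ hd _ :=
    absurd (Int.natCast_dvd_natCast.mp (dvd_neg.mp hd)) hq.not_dvd_one
  map_primaryPrime p _ j hj hp3 _ := by rw [Int.cast_neg, Int.cast_one, cubicChar_neg_one]

/-! ### The prime `3` -/

/-- `(3 / α)₃`. -/
def weightThree (α : EInt) : EInt := (⟨0, 1⟩ : EInt) ^ (α.im / 3 % 3).toNat

theorem omega_cube : (⟨0, 1⟩ : EInt) ^ 3 = 1 := by ext <;> simp [pow_succ]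

theorem omega_pow_eq_iff {a b : ℕ} : (⟨0, 1⟩ : EInt) ^ a = ⟨0, 1⟩ ^ b ↔ a % 3 = b % 3 := by
  have ho : orderOf (⟨0, 1⟩ : EInt) = 3 :=
    orderOf_eq_prime omega_cube (by simp [QuadraticAlgebra.ext_iff])
  rw [pow_eq_pow_mod a omega_cube, pow_eq_pow_mod b omega_cube]
  exact ⟨fun h => pow_injOn_Iio_orderOf (by rw [Set.mem_Iio, ho]; omega)
    (by rw [Set.mem_Iio, ho]; omega) h, fun h => by rw [h]⟩

section three

/-- The ring of algebraic integers in `ℂ`. -/
abbrev AlgInt : Type := ↥(integralClosure ℤ ℂ)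

/-- The cube root of unity as an algebraic integer. -/
def omegaA : AlgInt :=
  ⟨cubeRoot, IsIntegral.of_pow (show 0 < 3 by norm_num)
    (by rw [cube_of_root cubeRoot_spec]; exact isIntegral_one)⟩

theorem omegaA_spec : omegaA ^ 2 + omegaA + 1 = 0 := Subtype.ext (by simpa [omegaA] using cubeRoot_spec)

/-- The embedding in the algebraic integers. -/
def toA : EInt →+* AlgInt := evalW omegaA_spec

theorem coe_toA (α : EInt) : ((toA α : AlgInt) : ℂ) = toC α := by
  simp [toA, toC, evalW_apply, omegaA]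

theorem sum_cube {Q ι : Type*} [CommRing Q] (h3 : (3 : Q) = 0) (f : ι → Q) (s : Finset ι) :
    (∑ i ∈ s, f i) ^ 3 = ∑ i ∈ s, f i ^ 3 := by
  classical
  induction s using Finset.induction with
  | empty => simp
  | insert a s ha ih =>
    rw [Finset.sum_insert ha, Finset.sum_insert ha, ← ih]
    linear_combination (f a * (∑ i ∈ s, f i) * (f a + ∑ i ∈ s, f i)) * h3

variable {p : ℕ} [hp : Fact p.Prime] {j : ZMod p} (hj : j ^ 2 + j + 1 = 0) (hp3 : p ≠ 3)

open scoped Classical in
/-- The exponent of the cubic character. -/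
def cubicLog (x : ZMod p) : ℕ :=
  if cubicChar hj hp3 x = ⟨0, 1⟩ then 1 else if cubicChar hj hp3 x = ⟨-1, -1⟩ then 2 else 0

theorem cubicChar_eq_pow {x : ZMod p} (hx : x ≠ 0) :
    cubicChar hj hp3 x = (⟨0, 1⟩ : EInt) ^ cubicLog hj hp3 x := by
  rw [cubicLog]
  rcases isCU_cubicChar hj hp3 x with h | h | h | h
  · have := cubicChar_pow_three hj hp3 hx; rw [h] at this; simp at this
  all_goals rw [h]
  all_goals split_ifs <;> simp_all [QuadraticAlgebra.ext_iff, pow_two]

theorem cubicLog_zero : cubicLog hj hp3 0 = 0 := by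
  simp [cubicLog, MulChar.map_zero, QuadraticAlgebra.ext_iff]

theorem cubicLog_lt (x : ZMod p) : cubicLog hj hp3 x < 3 := by
  rw [cubicLog]; split_ifs <;> omega

/-- **The cubic symbol of `3`**, from `g³` modulo `9`. -/
theorem cubicChar_three : weightThree (primaryPrime hj hp3) = cubicChar hj hp3 3 := by
  have h3p : (3 : ZMod p) ≠ 0 := three_ne_zero' hp3
  set χ := cubicChar hj hp3 with hχ
  set χA : MulChar (ZMod p) AlgInt := χ.ringHomComp toA with hχA
  have happ : ∀ x, χA x = toA (χ x) := fun x => MulChar.ringHomComp_apply _ _ x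
  obtain ⟨ζ, hζ⟩ : ∃ ζ : AlgInt, IsPrimitiveRoot ζ p := by
    have h := Complex.isPrimitiveRoot_exp p hp.out.ne_zero
    exact ⟨⟨_, h.isIntegral hp.out.pos⟩,
      IsPrimitiveRoot.of_map_of_injective (f := (integralClosure ℤ ℂ).val) h Subtype.val_injective⟩
  set ψ := AddChar.zmodChar p hζ.pow_eq_one
  have hψ : ψ.IsPrimitive := AddChar.zmodChar_primitive_of_primitive_root p hζ
  have hψ1 : ψ ≠ 1 := fun e => hψ one_ne_zero (by rw [AddChar.mulShift_one, e])
  set om : AlgInt := omegaA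
  have hω : toA ⟨0, 1⟩ = om := by simp [toA, evalW_apply, om]
  have hωs : om ^ 2 + om + 1 = 0 := omegaA_spec
  set lam : AlgInt := om - 1 with hlam
  set E : ZMod p → ℕ := cubicLog hj hp3 with hE
  set h : ZMod p → AlgInt := fun x => ∑ i ∈ Finset.range (E x), om ^ i with hh
  have hχh : ∀ x, χA x = lam * h x + if x = 0 then 0 else 1 := fun x => by
    rcases eq_or_ne x 0 with rfl | hx
    · simp [h, E, cubicLog_zero, MulChar.map_zero]
    · rw [if_neg hx, happ, hχ, cubicChar_eq_pow hj hp3 hx, map_pow, hω, hlam, mul_comm,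
        geom_sum_mul, sub_add_cancel]
  set g := gaussSum χA ψ with hg
  set S := ∑ x : ZMod p, h x * ψ x with hS
  have hgS : g = lam * S - 1 := by
    have h1 : ∑ x : ZMod p, (if x = 0 then (0 : AlgInt) else 1) * ψ x = -1 := by
      have h0 := AddChar.sum_eq_zero_of_ne_one hψ1
      rw [← Finset.add_sum_erase _ _ (Finset.mem_univ (0 : ZMod p)), AddChar.map_zero_eq_one] at h0
      rw [← Finset.add_sum_erase _ _ (Finset.mem_univ (0 : ZMod p)), if_pos rfl, zero_mul, zero_add,
        Finset.sum_congr rfl fun x hx => by rw [if_neg (Finset.ne_of_mem_erase hx), one_mul]]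
      linear_combination h0
    rw [hg, gaussSum, Finset.sum_congr rfl fun x _ => show χA x * ψ x =
        lam * (h x * ψ x) + (if x = 0 then 0 else 1) * ψ x by rw [hχh]; ring,
      Finset.sum_add_distrib, ← Finset.mul_sum, ← hS, h1]
    ring
  -- `S³ ≡ S + e` modulo `λ`
  obtain ⟨W, hW⟩ : ∃ W, S ^ 3 = S + (E 3 : AlgInt) + lam * W := by
    let I : Ideal AlgInt := Ideal.span {lam}
    have hlam0 : Ideal.Quotient.mk I lam = 0 :=
      Ideal.Quotient.eq_zero_iff_mem.mpr (Ideal.mem_span_singleton_self lam)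
    suffices hQ : Ideal.Quotient.mk I (S ^ 3) = Ideal.Quotient.mk I (S + (E 3 : AlgInt)) by
      obtain ⟨W, hW⟩ := Ideal.mem_span_singleton'.mp (Ideal.Quotient.eq.mp hQ)
      exact ⟨W, by linear_combination -hW⟩
    set mk := Ideal.Quotient.mk I
    have hω1 : mk om = 1 := by
      have := hlam0; rwa [hlam, map_sub, map_one, sub_eq_zero] at this
    have h3 : (3 : AlgInt ⧸ I) = 0 := by
      rw [← map_ofNat mk 3, show (3 : AlgInt) = lam * (-(om ^ 2) * lam) by
        rw [hlam]; linear_combination (om ^ 2 - 3 * om + 3) * hωs, map_mul, hlam0, zero_mul]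
    have hcast : ∀ a b : ℕ, a % 3 = b % 3 → (a : AlgInt ⧸ I) = b := fun a b hab => by
      rw [← Nat.mod_add_div a 3, ← Nat.mod_add_div b 3, hab]
      push_cast
      rw [h3, zero_mul, zero_mul]
    have hmh : ∀ x, mk (h x) = (E x : AlgInt ⧸ I) := fun x => by simp [h, hω1]
    have hadd : ∀ x, x ≠ 0 → (E (3 * x) : AlgInt ⧸ I) = E 3 + E x := fun x hx => by
      rw [← Nat.cast_add]
      refine hcast _ _ (omega_pow_eq_iff.mp ?_)
      rw [pow_add, ← cubicChar_eq_pow hj hp3 (mul_ne_zero h3p hx), ← cubicChar_eq_pow hj hp3 h3p,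
        ← cubicChar_eq_pow hj hp3 hx, map_mul]
    have hsum : ∑ x : ZMod p, mk (ψ (3 * x)) = 0 := by
      rw [← map_sum, Fintype.sum_equiv (Equiv.mulLeft₀ (3 : ZMod p) h3p) (fun x => ψ (3 * x)) ψ
        (fun x => rfl), AddChar.sum_eq_zero_of_ne_one hψ1, map_zero]
    calc mk (S ^ 3) = ∑ x : ZMod p, (E x : AlgInt ⧸ I) * mk (ψ (3 * x)) := by
          rw [map_pow, hS, map_sum, sum_cube h3]
          refine Finset.sum_congr rfl fun x _ => ?_
          rw [map_mul, mul_pow, hmh, ← map_pow mk (ψ x), ← AddChar.map_nsmul_eq_pow, nsmul_eq_mul]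
          congr 1
          have := cubicLog_lt hj hp3 x
          rw [← Nat.cast_pow]
          refine hcast _ _ ?_
          interval_cases hEx : cubicLog hj hp3 x <;> simp [E, hEx]
      _ = ∑ x : ZMod p, ((E (3 * x) : AlgInt ⧸ I) * mk (ψ (3 * x)) -
            (E 3 : AlgInt ⧸ I) * (mk (ψ (3 * x)) - if x = 0 then 1 else 0)) := by
          refine Finset.sum_congr rfl fun x _ => ?_
          rcases eq_or_ne x 0 with rfl | hx
          · simp [E, cubicLog_zero]
          · rw [if_neg hx, hadd x hx]; ring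
      _ = mk S + (E 3 : AlgInt ⧸ I) := by
          rw [Finset.sum_sub_distrib, ← Finset.mul_sum, Finset.sum_sub_distrib, hsum,
            Finset.sum_ite_eq', if_pos (Finset.mem_univ _),
            Fintype.sum_equiv (Equiv.mulLeft₀ (3 : ZMod p) h3p)
              (fun x => (E (3 * x) : AlgInt ⧸ I) * mk (ψ (3 * x)))
              (fun y => (E y : AlgInt ⧸ I) * mk (ψ y)) (fun x => rfl), hS, map_sum]
          simp only [map_mul, hmh]
          ring
      _ = _ := by rw [map_add, map_natCast]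
  -- `g³ = -p π`
  have hne : χA ≠ 1 := fun e => cubicChar_ne_one hj hp3
    ((MulChar.ringHomComp_eq_one_iff (fun a b hab => toC_injective (by
      rw [← coe_toA, ← coe_toA, hab]))).mp e)
  have hord : orderOf χA = 3 := orderOf_eq_prime (by
    exact MulChar.ext fun a => by
      rw [MulChar.pow_apply_coe, happ, ← map_pow, cubicChar_pow_three hj hp3 (Units.ne_zero a),
        map_one, MulChar.one_apply_coe]) hne
  have hg3 : g ^ 3 = -((p : AlgInt) * toA (primaryPrime hj hp3)) := by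
    have := gaussSum_pow_eq_prod_jacobiSum (χ := χA) (by omega) hψ
    rw [hord, ← hg, ZMod.card, show (3 : ℕ) - 1 = 2 from rfl, show Finset.Ico 1 2 = {1} from rfl,
      Finset.prod_singleton, pow_one, happ, hχ, cubicChar_neg_one, map_one, one_mul,
      hχA, jacobiSum_ringHomComp] at this
    rw [this, primaryPrime, map_neg, mul_neg, neg_neg]
  set e := E 3 with he
  set π := primaryPrime hj hp3 with hπ
  obtain ⟨s, t, hs, ht⟩ := (isPrimary_primaryPrime hj hp3).exists_eq
  obtain ⟨k, hk⟩ : ∃ k : ℤ, (p : ℤ) = 3 * k + 1 :=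
    ⟨(p : ℤ) / 3, by have := mod_three_eq_one hj hp3; omega⟩
  rw [← hπ] at hs ht
  set y : EInt := ⟨-(3 * k * s + k + s) - e, (e : ℤ) - p * t⟩ with hy
  have hxy : (3 : EInt) * y = 1 - (p : EInt) * π + 3 * (⟨0, 1⟩ - 1) * (e : EInt) := by
    ext <;> simp [y, hs, ht, hk] <;> ring
  have hrel : toA y = 3 * (om * (S ^ 2 + S + (e : AlgInt) + om * W)) := by
    refine mul_left_cancel₀ (show (3 : AlgInt) ≠ 0 by norm_num) ?_
    have := congrArg toA hxy
    simp only [map_mul, map_add, map_sub, map_one, map_ofNat, map_natCast, hω] at this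
    rw [this]
    rw [hgS] at hg3
    rw [hlam] at hg3 hW
    linear_combination -hg3 + (om - 1) ^ 3 * hW + (-3 * S ^ 2 + (om - 4) * (S + (e : AlgInt)) +
      (om ^ 2 - 5 * om + 1) * W) * hωs
  have hint : IsIntegral ℤ (toC y / 3) := by
    rw [← coe_toA, hrel]
    rw [show ((3 * (om * (S ^ 2 + S + (e : AlgInt) + om * W)) : AlgInt) : ℂ) =
        (3 : ℂ) * ((om * (S ^ 2 + S + (e : AlgInt) + om * W) : AlgInt) : ℂ) from rfl,
      mul_div_cancel_left₀ _ (by norm_num : (3 : ℂ) ≠ 0)]
    exact (om * (S ^ 2 + S + (e : AlgInt) + om * W)).2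
  obtain ⟨-, hdvd⟩ := three_dvd_of_isIntegral hint
  change (3 : ℤ) ∣ (e : ℤ) - p * t at hdvd
  have hpt : (p : ℤ) * t = 3 * (k * t) + t := by rw [hk]; ring
  rw [weightThree, ht, hχ, cubicChar_eq_pow hj hp3 h3p, omega_pow_eq_iff, ← hE, ← he]
  rw [hpt] at hdvd
  omega

theorem isWeight_three : IsWeight 3 weightThree where
  periodic α γ := by
    unfold weightThree
    congr 2
    rw [show (α + ((9 * 3 : ℤ) : EInt) * γ).im = α.im + 27 * γ.im by simp]
    omega
  map_mul α β hα hβ := by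
    obtain ⟨s, t, e1, e2⟩ := hα.exists_eq
    obtain ⟨s', t', e3, e4⟩ := hβ.exists_eq
    unfold weightThree
    rw [← pow_add, omega_pow_eq_iff, QuadraticAlgebra.im_mul, e1, e2, e3, e4]
    ring_nf
    omega
  map_int a _ _ := by simp [weightThree]
  map_eq_zero _ _ q hq hq3 hd _ :=
    absurd ((Nat.prime_dvd_prime_iff_eq hq Nat.prime_three).mp (Int.natCast_dvd_natCast.mp hd)) hq3
  map_primaryPrime p _ j hj hp3 _ := by rw [cubicChar_three, Int.cast_ofNat]

end three

/-! ### A prime `q ≠ 3` -/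

section other

variable {q : ℕ} [hq : Fact q.Prime]

local notation "K" => AlgebraicClosure (ZMod q)

theorem exists_rootW : ∃ x : K, x ^ 2 + x + 1 = 0 := by
  have hd : (Polynomial.X ^ 2 + Polynomial.X + Polynomial.C (1 : K)).degree = 2 := by
    compute_degree!
  have h0 : (Polynomial.X ^ 2 + Polynomial.X + Polynomial.C (1 : K)).degree ≠ (0 : WithBot ℕ) := by
    rw [hd]; decide
  obtain ⟨x, hx⟩ := IsAlgClosed.exists_root _ h0
  exact ⟨x, by simpa using hx⟩

variable (q) in
/-- A root of `X² + X + 1` in characteristic `q`. -/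
def rootW : K := (exists_rootW (q := q)).choose

theorem rootW_spec : rootW q ^ 2 + rootW q + 1 = 0 := (exists_rootW (q := q)).choose_spec

variable (q) in
/-- Reduction of `ℤ[ω]` in characteristic `q`. -/
def redW : EInt →+* K := evalW (rootW_spec (q := q))

theorem three_ne_zero_K (hq3 : q ≠ 3) : (3 : K) ≠ 0 := by
  rw [← Nat.cast_ofNat, Ne, CharP.cast_eq_zero_iff K q,
    Nat.prime_dvd_prime_iff_eq hq.out Nat.prime_three]
  exact hq3

theorem mod_three_sq (hq3 : q ≠ 3) : q ^ 2 % 3 = 1 := by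
  have h3 : ¬ 3 ∣ q := fun h => hq3 ((Nat.prime_dvd_prime_iff_eq Nat.prime_three hq.out).mp h).symm
  rw [Nat.pow_mod]
  rcases (show q % 3 = 1 ∨ q % 3 = 2 by omega) with h | h <;> rw [h]

theorem intCast_pow_sq (a : ℤ) : (a : K) ^ q ^ 2 = a := by
  have e : (a : K) ^ q = a := by rw [← frobenius_def, map_intCast]
  rw [pow_two, pow_mul, e, e]

theorem redW_pow_sq (hq3 : q ≠ 3) (α : EInt) : redW q α ^ q ^ 2 = redW q α := by
  have := CharP.charP_iff_prime_eq_zero (R := K) hq.out |>.mpr (CharP.cast_eq_zero K q)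
  show (evalW _ α) ^ q ^ 2 = evalW _ α
  rw [evalW_apply, add_pow_char_pow, mul_pow, intCast_pow_sq, intCast_pow_sq,
    pow_eq_pow_mod _ (cube_of_root rootW_spec), mod_three_sq hq3, pow_one]

variable (q) in
/-- `(N α α)^((q² - 1) / 3)` in characteristic `q`, the symbol at `α` of `q`. -/
def symb (α : EInt) : K := ((α.norm : K) * redW q α) ^ ((q ^ 2 - 1) / 3)

theorem symb_mul (α β : EInt) : symb q (α * β) = symb q α * symb q β := by
  unfold symb
  rw [map_mul, map_mul, Int.cast_mul, ← mul_pow]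
  ring

theorem exp_pos (hq3 : q ≠ 3) : (q ^ 2 - 1) / 3 ≠ 0 ∧ (q ^ 2 - 1) / 3 * 3 = q ^ 2 - 1 := by
  have := mod_three_sq (q := q) hq3
  have := Nat.pow_le_pow_left hq.out.two_le 2
  omega

theorem symb_pow_three (hq3 : q ≠ 3) (α : EInt) : symb q α ^ 3 = 1 ∨ symb q α = 0 := by
  unfold symb
  set z := (α.norm : K) * redW q α with hz
  rcases eq_or_ne z 0 with e | e
  · exact Or.inr (by rw [e, zero_pow (exp_pos hq3).1])
  refine Or.inl (mul_left_cancel₀ e ?_)
  rw [← pow_mul, (exp_pos hq3).2, ← pow_succ', Nat.sub_add_cancel (Nat.one_le_pow _ _ hq.out.pos),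
    mul_one, hz, mul_pow, intCast_pow_sq, redW_pow_sq hq3]

variable (q) in
/-- The weight of `q`. -/
def weightPrime (α : EInt) : EInt := unitLift (rootW q) (symb q α)

theorem gaussSum_cubic {p : ℕ} [hp : Fact p.Prime] {j : ZMod p} (hj : j ^ 2 + j + 1 = 0)
    (hp3 : p ≠ 3) (hq3 : q ≠ 3) (hpq : p ≠ q) :
    redW q (cubicChar hj hp3 (q : ZMod p)) = symb q (primaryPrime hj hp3) := by
  set χ := cubicChar hj hp3 with hχdef
  set χK : MulChar (ZMod p) K := χ.ringHomComp (redW q) with hχK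
  have h3K := three_ne_zero_K hq3
  have happ : ∀ x, χK x = redW q (χ x) := fun x => MulChar.ringHomComp_apply _ _ x
  have hne : χK ≠ 1 := fun e => cubicChar_ne_one hj hp3 (MulChar.ext fun a => by
    have := DFunLike.congr_fun e (a : ZMod p)
    rw [happ, MulChar.one_apply_coe, ← map_one (redW q)] at this
    rw [MulChar.one_apply_coe]
    exact evalW_injOn rootW_spec h3K (isCU_cubicChar hj hp3 _) (Or.inr (Or.inl rfl)) this)
  have hord : orderOf χK = 3 := orderOf_eq_prime (by
    exact MulChar.ext fun a => by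
      rw [MulChar.pow_apply_coe, happ, ← map_pow, cubicChar_pow_three hj hp3 (Units.ne_zero a),
        map_one, MulChar.one_apply_coe]) hne
  have hpK : (p : K) ≠ 0 := by
    rw [Ne, CharP.cast_eq_zero_iff K q, Nat.prime_dvd_prime_iff_eq hq.out hp.out]
    exact hpq.symm
  have : NeZero (p : K) := ⟨hpK⟩
  obtain ⟨ζ, hζ⟩ := HasEnoughRootsOfUnity.exists_primitiveRoot K p
  set ψ := AddChar.zmodChar p hζ.pow_eq_one
  have hψ : ψ.IsPrimitive := AddChar.zmodChar_primitive_of_primitive_root p hζ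
  set g := gaussSum χK ψ with hg
  have hg0 : g ≠ 0 := gaussSum_ne_zero_of_nontrivial (by rwa [ZMod.card]) hne hψ
  have hg3 : g ^ 3 = -((p : K) * redW q (primaryPrime hj hp3)) := by
    have := gaussSum_pow_eq_prod_jacobiSum (χ := χK) (by omega) hψ
    rw [hord, ← hg, ZMod.card, show (3 : ℕ) - 1 = 2 from rfl, show Finset.Ico 1 2 = {1} from rfl,
      Finset.prod_singleton, pow_one, happ, hχdef, cubicChar_neg_one, map_one, one_mul,
      hχK, jacobiSum_ringHomComp] at this
    rw [this, primaryPrime, map_neg, mul_neg, neg_neg]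
  have hqp : IsUnit (q : ZMod p) := by
    rw [isUnit_iff_ne_zero, Ne, CharP.cast_eq_zero_iff (ZMod p) p,
      Nat.prime_dvd_prime_iff_eq hp.out hq.out]
    exact hpq
  have hfrob : χK (q : ZMod p) ^ 2 * g ^ q ^ 2 = g := by
    have h1 : g ^ q ^ 2 = gaussSum χK (ψ ^ q ^ 2) := by
      rw [pow_two, pow_mul, hg, gaussSum_frob, gaussSum_frob, ← pow_mul, ← pow_mul, ← pow_two,
        pow_eq_pow_mod _ (show χK ^ 3 = 1 from hord ▸ pow_orderOf_eq_one χK), mod_three_sq hq3,
        pow_one]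
    rw [h1, AddChar.pow_mulShift, ← map_pow, hg, ← gaussSum_mulShift χK ψ (hqp.unit ^ 2)]
    simp
  have hchi3 : χK (q : ZMod p) ^ 3 = 1 := by
    rw [happ, hχdef, ← map_pow, cubicChar_pow_three hj hp3 hqp.ne_zero, map_one]
  have hsign : ((-1 : K)) ^ ((q ^ 2 - 1) / 3) = 1 := by
    rcases hq.out.eq_two_or_odd' with h2 | ho
    · have : CharP K 2 := h2 ▸ (inferInstance : CharP K q)
      rw [CharTwo.neg_eq, one_pow]
    · refine Even.neg_one_pow ?_
      obtain ⟨i, rfl⟩ := ho
      have := (exp_pos (q := 2 * i + 1) hq3).2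
      rw [Nat.even_iff]
      have : (2 * i + 1) ^ 2 = 4 * (i * i + i) + 1 := by ring
      omega
  have hsymb : symb q (primaryPrime hj hp3) = (g ^ 3) ^ ((q ^ 2 - 1) / 3) := by
    rw [symb, norm_primaryPrime, hg3, Int.cast_natCast,
      neg_pow ((p : K) * redW q (primaryPrime hj hp3)), hsign, one_mul]
  rw [hsymb, ← happ, ← pow_mul, mul_comm 3, (exp_pos hq3).2]
  refine mul_right_cancel₀ hg0 ?_
  rw [← pow_succ, Nat.sub_add_cancel (Nat.one_le_pow _ _ hq.out.pos)]
  calc χK (q : ZMod p) * g = χK (q : ZMod p) * (χK (q : ZMod p) ^ 2 * g ^ q ^ 2) := by rw [hfrob]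
    _ = χK (q : ZMod p) ^ 3 * g ^ q ^ 2 := by ring
    _ = g ^ q ^ 2 := by rw [hchi3, one_mul]

theorem isWeight_prime (hq3 : q ≠ 3) : IsWeight q (weightPrime q) where
  periodic α γ := by
    have h0 : ((9 * (q : ℤ) : ℤ) : K) = 0 := by simp
    have e1 : redW q (α + ((9 * (q : ℤ) : ℤ) : EInt) * γ) = redW q α := by
      rw [map_add, map_mul, map_intCast, h0, zero_mul, add_zero]
    have e2 : ((α + ((9 * (q : ℤ) : ℤ) : EInt) * γ).norm : K) = (α.norm : K) := by
      generalize (9 * (q : ℤ) : ℤ) = c at h0 ⊢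
      simp [norm_eq, h0]
    unfold weightPrime symb
    rw [e1, e2]
  map_mul α β _ _ := by
    unfold weightPrime
    rw [symb_mul, unitLift_mul rootW_spec (three_ne_zero_K hq3) (symb_pow_three hq3 α)
      (symb_pow_three hq3 β)]
  map_int a _ hc := by
    have ha : (a : K) ≠ 0 := by
      intro e
      rw [CharP.intCast_eq_zero_iff K q] at e
      exact hq.out.not_dvd_one (Int.natCast_dvd_natCast.mp
        (by simpa using (hc.isUnit_of_dvd' e dvd_rfl).dvd (a := (1 : ℤ))))
    have h1 : symb q (a : EInt) = 1 := by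
      rw [symb, QuadraticAlgebra.norm_intCast, map_intCast, Int.cast_id, Int.cast_pow, ← pow_succ,
        ← pow_mul, mul_comm, (exp_pos hq3).2]
      refine mul_left_cancel₀ ha ?_
      rw [← pow_succ', Nat.sub_add_cancel (Nat.one_le_pow _ _ hq.out.pos), intCast_pow_sq, mul_one]
    simp [weightPrime, unitLift, h1]
  map_eq_zero α _ l hl _ hd hn := by
    rw [(Nat.prime_dvd_prime_iff_eq hl hq.out).mp (Int.natCast_dvd_natCast.mp hd)] at hn
    rw [weightPrime, symb, (CharP.intCast_eq_zero_iff K q _).mpr hn, zero_mul,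
      zero_pow (exp_pos hq3).1, unitLift_zero rootW_spec]
  map_primaryPrime p _ j hj hp3 hd := by
    have hpq : p ≠ q := fun e => hd (by subst e; simp)
    rw [weightPrime, ← gaussSum_cubic hj hp3 hq3 hpq, Int.cast_natCast]
    exact unitLift_evalW rootW_spec (three_ne_zero_K hq3) (isCU_cubicChar hj hp3 _)

end other

/-- **There is a weight for every `c ≠ 0`.** -/
theorem exists_isWeight {c : ℤ} (hc : c ≠ 0) : ∃ φ, IsWeight c φ := by
  suffices h : ∀ n : ℕ, n ≠ 0 → ∃ φ, IsWeight n φ by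
    rcases Int.natAbs_eq c with e | e <;> rw [e]
    · exact h _ (Int.natAbs_ne_zero.mpr hc)
    · obtain ⟨φ, hφ⟩ := h _ (Int.natAbs_ne_zero.mpr hc)
      rw [← neg_one_mul]
      exact ⟨_, isWeight_neg_one.mul hφ⟩
  intro n
  induction n using induction_on_primes with
  | zero => exact fun h => absurd rfl h
  | one => exact fun _ => ⟨_, isWeight_one⟩
  | prime_mul l n hl ih =>
    intro h
    obtain ⟨φ, hφ⟩ := ih (right_ne_zero_of_mul h)
    have := Fact.mk hl
    rw [Nat.cast_mul]
    rcases eq_or_ne l 3 with rfl | hl3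
    · exact ⟨_, isWeight_three.mul hφ⟩
    · exact ⟨_, (isWeight_prime (q := l) hl3).mul hφ⟩

end FA.CM.Cubic

end
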