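import Fermat.Agent.CM.Cubic.Eisenstein
import Fermat.Agent.CM.Count27
import Mathlib.NumberTheory.JacobiSum.Basic

/-!
# The Frobenius traces of `y² + c y = x³`

For a prime `p` and `j ∈ 𝔽_p` with `j² + j + 1 = 0` let `χ` be the lift to `ℤ[ω]` of
`x ↦ x^((p-1)/3)` and `π = -J (χ, χ)`. Then `π` is congruent to `1` modulo `3`, of norm `p`, goes
to `0` under `ω ↦ j`, and the trace at `p` is `χ (c²) π` plus its conjugate.
-/

set_option autoImplicit false

noncomputable section

open WeierstrassCurve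
open scoped QuadraticAlgebra

namespace FA.CM.Cubic

/-- `y² + c y = x³`. -/
def jZeroModel {R : Type*} [CommRing R] (c : R) : WeierstrassCurve R := ⟨0, 0, c, 0, 0⟩

theorem jZeroModel_map {R S : Type*} [CommRing R] [CommRing S] (f : R →+* S) (c : R) :
    (jZeroModel c).map f = jZeroModel (f c) := by
  ext <;> simp [jZeroModel]

theorem jZeroModel_Δ {R : Type*} [CommRing R] (c : R) : (jZeroModel c).Δ = -27 * c ^ 4 := by
  simp only [jZeroModel, WeierstrassCurve.Δ, b₂, b₄, b₆, b₈]; ring

theorem jZeroModel_c₄ {R : Type*} [CommRing R] (c : R) : (jZeroModel c).c₄ = 0 := by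
  simp only [jZeroModel, c₄, b₂, b₄]; ring

theorem jZeroModel_c₆ {R : Type*} [CommRing R] (c : R) : (jZeroModel c).c₆ = -216 * c ^ 2 := by
  simp only [jZeroModel, c₆, b₂, b₄, b₆]; ring

theorem jZeroModel_equation {R : Type*} [CommRing R] (c x y : R) :
    (jZeroModel c).toAffine.Equation x y ↔ x ^ 3 = y ^ 2 + c * y := by
  rw [Affine.equation_iff]
  simp only [jZeroModel]
  constructor <;> intro hxy <;> linear_combination -hxy

/-- The affine points, sorted by `y`. -/
def jZeroPointEquiv {F : Type*} [Field F] {c : F} (hΔ : (jZeroModel c).Δ ≠ 0) :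
    (jZeroModel c).toAffine.Point ≃ Option (Σ y : F, {x : F // x ^ 3 = y ^ 2 + c * y}) where
  toFun P := match P with
    | .zero => none
    | .some x y hxy => some ⟨y, x, (jZeroModel_equation c x y).1 hxy.1⟩
  invFun o := match o with
    | none => .zero
    | some ⟨y, x, hxy⟩ => .some x y ((Affine.equation_iff_nonsingular_of_Δ_ne_zero hΔ).1
        ((jZeroModel_equation c x y).2 hxy))
  left_inv P := by rcases P with _ | ⟨x, y, hxy⟩ <;> rfl
  right_inv o := by rcases o with _ | ⟨y, x, hxy⟩ <;> rfl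

section prime

variable {p : ℕ} [hp : Fact p.Prime]

theorem apOfModel_jZeroModel (c : ℤ) (hp3 : p ≠ 3) (hc : (c : ZMod p) ≠ 0) :
    (jZeroModel c).apOfModel p =
      p - ∑ y : ZMod p, ((Finset.univ.filter fun x : ZMod p => x ^ 3 = y ^ 2 + (c : ZMod p) * y).card
        : ℤ) := by
  classical
  have hΔ : (jZeroModel (c : ZMod p)).Δ ≠ 0 := by
    rw [jZeroModel_Δ, neg_mul, neg_ne_zero]
    refine mul_ne_zero ?_ (pow_ne_zero _ hc)
    rw [show (27 : ZMod p) = ((3 ^ 3 : ℕ) : ZMod p) by norm_num, Ne, ZMod.natCast_eq_zero_iff]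
    exact fun h => hp3 ((Nat.prime_dvd_prime_iff_eq hp.out Nat.prime_three).mp
      (hp.out.dvd_of_dvd_pow h))
  rw [apOfModel, reductionMod, jZeroModel_map, eq_intCast, traceOfFrobenius, WeierstrassCurve.card,
    Nat.card_congr (jZeroPointEquiv hΔ), Nat.card_eq_fintype_card, Nat.card_eq_fintype_card,
    Fintype.card_option, Fintype.card_sigma, ZMod.card]
  push_cast
  simp only [Fintype.card_subtype]
  ring

/-- For `p ≡ 2 (mod 3)` cubing is bijective. -/
theorem apOfModel_jZeroModel_two {c : ℤ} (hp2 : p % 3 = 2) (hc : (c : ZMod p) ≠ 0) :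
    (jZeroModel c).apOfModel p = 0 := by
  classical
  obtain ⟨i, hi⟩ : ∃ i, 3 * i = 2 * p - 1 := ⟨(2 * p - 1) / 3, by omega⟩
  have hroot : ∀ x : ZMod p, (x ^ 3) ^ i = x := fun x => by
    rw [← pow_mul, hi]
    rcases eq_or_ne x 0 with rfl | hx
    · rw [zero_pow]; have := hp.out.two_le; omega
    · have e := ZMod.pow_card_sub_one_eq_one hx
      rw [show 2 * p - 1 = (p - 1) + (p - 1) + 1 by have := hp.out.two_le; omega, pow_succ, pow_add,
        e, one_mul, one_mul]
  have hbij : Function.Bijective fun x : ZMod p => x ^ 3 :=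
    Finite.injective_iff_bijective.mp fun a b hab => by
      have := congrArg (· ^ i) hab
      simpa [hroot] using this
  have hone : ∀ t : ZMod p, (Finset.univ.filter fun x : ZMod p => x ^ 3 = t).card = 1 := fun t => by
    obtain ⟨x₀, hx₀, hu⟩ := hbij.existsUnique t
    rw [Finset.card_eq_one]
    exact ⟨x₀, Finset.eq_singleton_iff_unique_mem.mpr ⟨by simpa using hx₀, fun x hx =>
      hu x (by simpa using hx)⟩⟩
  rw [apOfModel_jZeroModel c (by omega) hc]
  simp [hone]

variable {j : ZMod p}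

theorem mod_three_eq_one (hj : j ^ 2 + j + 1 = 0) (hp3 : p ≠ 3) : p % 3 = 1 := by
  have h3 : (3 : ZMod p) ≠ 0 := by
    rw [show (3 : ZMod p) = ((3 : ℕ) : ZMod p) by norm_num, Ne, ZMod.natCast_eq_zero_iff,
      Nat.prime_dvd_prime_iff_eq hp.out Nat.prime_three]
    exact hp3
  have ho : orderOf j = 3 := orderOf_eq_prime (cube_of_root hj) (one_ne_of_root hj h3)
  have hd : 3 ∣ p - 1 := ho ▸ ZMod.orderOf_dvd_card_sub_one (ne_zero_of_root hj)
  have := hp.out.two_le
  omega

theorem three_ne_zero' (hp3 : p ≠ 3) : (3 : ZMod p) ≠ 0 := by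
  rw [show (3 : ZMod p) = ((3 : ℕ) : ZMod p) by norm_num, Ne, ZMod.natCast_eq_zero_iff,
    Nat.prime_dvd_prime_iff_eq hp.out Nat.prime_three]
  exact hp3

theorem pow_third (hj : j ^ 2 + j + 1 = 0) (hp3 : p ≠ 3) (x : ZMod p) :
    (x ^ ((p - 1) / 3)) ^ 3 = 1 ∨ x ^ ((p - 1) / 3) = 0 := by
  have h1 := mod_three_eq_one hj hp3
  have := hp.out.two_le
  rcases eq_or_ne x 0 with rfl | hx
  · exact Or.inr (zero_pow (by omega))
  · refine Or.inl ?_
    rw [← pow_mul, show (p - 1) / 3 * 3 = p - 1 by omega]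
    exact ZMod.pow_card_sub_one_eq_one hx

/-- The cubic character of `𝔽_p` that `ω ↦ j` singles out. -/
def cubicChar (hj : j ^ 2 + j + 1 = 0) (hp3 : p ≠ 3) : MulChar (ZMod p) EInt where
  toFun x := unitLift j (x ^ ((p - 1) / 3))
  map_one' := by simp [unitLift]
  map_mul' x y := by
    rw [mul_pow, unitLift_mul hj (three_ne_zero' hp3) (pow_third hj hp3 x) (pow_third hj hp3 y)]
  map_nonunit' x hx := by
    rw [isUnit_iff_ne_zero, not_not] at hx
    subst hx
    have h1 := mod_three_eq_one hj hp3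
    have := hp.out.two_le
    rw [zero_pow (by omega), unitLift_zero hj]

variable (hj : j ^ 2 + j + 1 = 0) (hp3 : p ≠ 3)

theorem evalW_cubicChar (x : ZMod p) :
    evalW hj (cubicChar hj hp3 x) = x ^ ((p - 1) / 3) :=
  evalW_unitLift hj (pow_third hj hp3 x)

theorem isCU_cubicChar (x : ZMod p) : IsCU (cubicChar hj hp3 x) := isCU_unitLift _ _

theorem cubicChar_pow_three {x : ZMod p} (hx : x ≠ 0) : cubicChar hj hp3 x ^ 3 = 1 := by
  refine evalW_injOn hj (three_ne_zero' hp3) ((isCU_cubicChar hj hp3 x).pow 3) (Or.inr (Or.inl rfl)) ?_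
  rw [map_pow, evalW_cubicChar, map_one]
  exact (pow_third hj hp3 x).resolve_right (pow_ne_zero _ hx)

theorem cubicChar_neg_one : cubicChar hj hp3 (-1) = 1 := by
  calc cubicChar hj hp3 (-1) = cubicChar hj hp3 (-1) * (cubicChar hj hp3 ((-1) * (-1))) := by
        rw [neg_mul_neg, one_mul, map_one, mul_one]
    _ = cubicChar hj hp3 (-1) ^ 3 := by rw [map_mul]; ring
    _ = 1 := cubicChar_pow_three hj hp3 (neg_ne_zero.mpr one_ne_zero)

theorem cubicChar_conj (x : ZMod p) :
    cubicChar (sq_add_add_conj hj) hp3 x = star (cubicChar hj hp3 x) := by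
  refine evalW_injOn (sq_add_add_conj hj) (three_ne_zero' hp3) (isCU_cubicChar _ _ x)
    (isCU_cubicChar hj hp3 x).star ?_
  rw [evalW_cubicChar, evalW_star, evalW_apply]
  rw [show (-1 : ZMod p) - (-1 - j) = j by ring, ← evalW_apply hj, evalW_cubicChar]

theorem cubicChar_ne_one : cubicChar hj hp3 ≠ 1 := fun h => by
  obtain ⟨g, hg⟩ := IsCyclic.exists_generator (α := (ZMod p)ˣ)
  have h1 := mod_three_eq_one hj hp3
  have h2 := hp.out.two_le
  have ho : orderOf g = p - 1 := by
    rw [orderOf_eq_card_of_forall_mem_zpowers hg, Nat.card_eq_fintype_card, ZMod.card_units]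
  have := DFunLike.congr_fun h (g : ZMod p)
  rw [MulChar.one_apply_coe] at this
  have e := evalW_cubicChar hj hp3 (g : ZMod p)
  rw [this, map_one, ← Units.val_pow_eq_pow_val, eq_comm, Units.val_eq_one] at e
  exact pow_ne_one_of_lt_orderOf (x := g) (by omega) (by omega) e

theorem cubicChar_pow_three_eq : cubicChar hj hp3 ^ 3 = 1 := MulChar.ext fun a => by
  rw [MulChar.pow_apply_coe, cubicChar_pow_three hj hp3 (Units.ne_zero a), MulChar.one_apply_coe]

theorem cubicChar_inv_apply (x : ZMod p) :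
    (cubicChar hj hp3)⁻¹ x = star (cubicChar hj hp3 x) := by
  rw [show (cubicChar hj hp3)⁻¹ = cubicChar hj hp3 ^ 2 from
      inv_eq_of_mul_eq_one_right (by rw [← pow_succ', cubicChar_pow_three_eq]),
    MulChar.pow_apply' _ two_ne_zero, (isCU_cubicChar hj hp3 x).star_eq]

theorem cubicChar_sq_ne_one : cubicChar hj hp3 ^ 2 ≠ 1 := fun h => cubicChar_ne_one hj hp3 (by
  have := cubicChar_pow_three_eq hj hp3
  rwa [pow_succ, h, one_mul] at this)

/-- `π = -J (χ, χ)`. -/
def primaryPrime : EInt := -jacobiSum (cubicChar hj hp3) (cubicChar hj hp3)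

theorem evalW_primaryPrime : evalW hj (primaryPrime hj hp3) = 0 := by
  have h1 := mod_three_eq_one hj hp3
  set m := (p - 1) / 3 with hm
  rw [primaryPrime, map_neg, neg_eq_zero, jacobiSum, map_sum]
  simp only [map_mul, evalW_cubicChar, ← hm, sub_eq_add_neg, add_pow, Finset.mul_sum]
  rw [Finset.sum_comm]
  refine Finset.sum_eq_zero fun k hk => ?_
  rw [Finset.mem_range] at hk
  simp only [one_pow, one_mul]
  rw [Finset.sum_congr rfl fun x _ => show x ^ m * ((-x) ^ (m - k) * (m.choose k : ZMod p)) =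
    ((-1) ^ (m - k) * (m.choose k : ZMod p)) * x ^ (m + (m - k)) by rw [neg_pow x, pow_add]; ring,
    ← Finset.mul_sum, FiniteField.sum_pow_lt_card_sub_one _ _ (by
      rw [ZMod.card]; have := hp.out.two_le; omega), mul_zero]

theorem primaryPrime_mul_star : primaryPrime hj hp3 * star (primaryPrime hj hp3) = (p : EInt) := by
  set χ := cubicChar hj hp3 with hχdef
  have hJ : star (jacobiSum χ χ) = jacobiSum χ⁻¹ χ⁻¹ := by
    rw [jacobiSum, jacobiSum, star_sum]
    exact Finset.sum_congr rfl fun x _ => by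
      rw [star_mul', hχdef, cubicChar_inv_apply, cubicChar_inv_apply]
  have hne : ∀ {ψ : MulChar (ZMod p) EInt}, ψ ≠ 1 → ψ.ringHomComp toC ≠ 1 := fun hψ e =>
    hψ (MulChar.ringHomComp_eq_one_iff toC_injective |>.mp e)
  rw [primaryPrime, star_neg, neg_mul_neg, hJ]
  apply toC_injective
  rw [map_mul, ← jacobiSum_ringHomComp, ← jacobiSum_ringHomComp, map_natCast,
    ← MulChar.ringHomComp_inv,
    jacobiSum_mul_jacobiSum_inv (by
      rw [ZMod.ringChar_zmod_n, ringChar.eq_zero]; exact hp.out.ne_zero.symm)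
      (hne (cubicChar_ne_one hj hp3)) (hne (cubicChar_ne_one hj hp3))
      (by rw [← MulChar.ringHomComp_mul, ← pow_two]; exact hne (cubicChar_sq_ne_one hj hp3)),
    ZMod.card]

theorem norm_primaryPrime : (primaryPrime hj hp3).norm = (p : ℤ) := by
  have h := primaryPrime_mul_star hj hp3
  rw [norm_mul_star] at h
  exact_mod_cast congrArg QuadraticAlgebra.re h

theorem primaryPrime_conj :
    primaryPrime (sq_add_add_conj hj) hp3 = star (primaryPrime hj hp3) := by
  simp only [primaryPrime, jacobiSum, cubicChar_conj hj hp3, star_mul', star_neg, star_sum]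

theorem isPrimary_primaryPrime : IsPrimary (primaryPrime hj hp3) := by
  have hω : IsPrimitiveRoot (⟨0, 1⟩ : EInt) 3 := by
    have hμ : (⟨0, 1⟩ : EInt) ^ 3 = 1 := by ext <;> simp [pow_succ]
    have := IsPrimitiveRoot.orderOf (⟨0, 1⟩ : EInt)
    rwa [orderOf_eq_prime hμ (by simp [QuadraticAlgebra.ext_iff])] at this
  have hcard : 3 ∣ Fintype.card (ZMod p) - 1 := by
    rw [ZMod.card]; have := mod_three_eq_one hj hp3; omega
  obtain ⟨z, -, hz⟩ := exists_jacobiSum_eq_neg_one_add (by norm_num) (cubicChar_pow_three_eq hj hp3)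
    (cubicChar_pow_three_eq hj hp3) hcard hω
  simp only [IsPrimary, primaryPrime, hz, pow_two, QuadraticAlgebra.re_neg, QuadraticAlgebra.im_neg,
    QuadraticAlgebra.re_add, QuadraticAlgebra.im_add, QuadraticAlgebra.re_mul,
    QuadraticAlgebra.im_mul, QuadraticAlgebra.re_sub, QuadraticAlgebra.im_sub,
    QuadraticAlgebra.re_one, QuadraticAlgebra.im_one]
  constructor <;> ring_nf <;> omega

theorem card_cubeRoots (t : ZMod p) :
    ((Finset.univ.filter fun x : ZMod p => x ^ 3 = t).card : EInt) =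
      1 + cubicChar hj hp3 t + star (cubicChar hj hp3 t) := by
  classical
  have h3 := three_ne_zero' hp3
  rcases eq_or_ne t 0 with rfl | ht
  · rw [show Finset.univ.filter (fun x : ZMod p => x ^ 3 = 0) = {0} by ext; simp,
      MulChar.map_zero]
    simp
  by_cases hcube : ∃ x, x ^ 3 = t
  · obtain ⟨x₀, rfl⟩ := hcube
    have hx₀ : x₀ ≠ 0 := fun e => ht (by rw [e]; ring)
    rw [map_pow, cubicChar_pow_three hj hp3 hx₀, star_one,
      show Finset.univ.filter (fun x : ZMod p => x ^ 3 = x₀ ^ 3) = {x₀, j * x₀, j ^ 2 * x₀} by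
        ext x
        simp only [Finset.mem_filter, Finset.mem_univ, true_and, Finset.mem_insert,
          Finset.mem_singleton]
        rw [← sub_eq_zero, ← sub_eq_zero (a := x) (b := x₀), ← sub_eq_zero (a := x) (b := j * x₀),
          ← sub_eq_zero (a := x) (b := j ^ 2 * x₀), ← mul_eq_zero, ← mul_eq_zero,
          show x ^ 3 - x₀ ^ 3 = (x - x₀) * ((x - j * x₀) * (x - j ^ 2 * x₀)) by
            linear_combination (x ^ 2 * x₀ - j * x * x₀ ^ 2 + (j - 1) * x₀ ^ 3) * hj]]
    rw [Finset.card_insert_of_notMem, Finset.card_pair]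
    · norm_num
    · exact fun h => one_ne_of_root hj h3 (mul_left_cancel₀ (ne_zero_of_root hj)
        (mul_right_cancel₀ hx₀ (by linear_combination -h)))
    · simp only [Finset.mem_insert, Finset.mem_singleton, not_or]
      exact ⟨fun h => one_ne_of_root hj h3 (mul_right_cancel₀ hx₀ (by rw [one_mul, ← h])),
        fun h => one_ne_of_root (sq_add_add_conj hj) h3 (mul_right_cancel₀ hx₀ (by
          rw [one_mul]; linear_combination -h - x₀ * hj))⟩
  rw [Finset.filter_eq_empty_iff.mpr fun x _ hx => hcube ⟨x, hx⟩, Finset.card_empty, Nat.cast_zero]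
  -- a value `1` would make `t` a cube
  have hne : cubicChar hj hp3 t ≠ 1 := fun h => hcube (by
    obtain ⟨g, hg⟩ := IsCyclic.exists_generator (α := (ZMod p)ˣ)
    have h1 := mod_three_eq_one hj hp3
    have h2 := hp.out.two_le
    have ho : orderOf g = p - 1 := by
      rw [orderOf_eq_card_of_forall_mem_zpowers hg, Nat.card_eq_fintype_card, ZMod.card_units]
    obtain ⟨k, hk⟩ := (mem_powers_iff_mem_zpowers.mpr (hg (Units.mk0 t ht)))
    have e := evalW_cubicChar hj hp3 t
    rw [h, map_one, show t = (((g ^ k : (ZMod p)ˣ)) : ZMod p) by simp [show g ^ k = _ from hk],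
      ← Units.val_pow_eq_pow_val, eq_comm, Units.val_eq_one, ← pow_mul,
      ← orderOf_dvd_iff_pow_eq_one, ho] at e
    obtain ⟨m, hm⟩ : 3 ∣ k := by
      refine Nat.dvd_of_mul_dvd_mul_right (show 0 < (p - 1) / 3 by omega) ?_
      rwa [show 3 * ((p - 1) / 3) = p - 1 by omega]
    refine ⟨((g ^ m : (ZMod p)ˣ) : ZMod p), ?_⟩
    rw [← Units.val_pow_eq_pow_val, ← pow_mul, mul_comm, ← hm, show g ^ k = _ from hk]
    rfl)
  rcases isCU_cubicChar hj hp3 t with h | h | h | h
  · exact absurd h (fun h0 => by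
      have := cubicChar_pow_three hj hp3 ht; rw [h0] at this; simp at this)
  · exact absurd h hne
  all_goals rw [h]; ext <;> simp

/-- The trace at a prime `p ≡ 1 (mod 3)`. -/
theorem apOfModel_jZeroModel_one {c : ℤ} (hc : (c : ZMod p) ≠ 0) :
    ((jZeroModel c).apOfModel p : EInt) =
      cubicChar hj hp3 ((c : ZMod p) ^ 2) * primaryPrime hj hp3 +
        star (cubicChar hj hp3 ((c : ZMod p) ^ 2) * primaryPrime hj hp3) := by
  classical
  set χ := cubicChar hj hp3 with hχ
  have hS : ∑ y : ZMod p, χ (y ^ 2 + (c : ZMod p) * y) =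
      χ ((c : ZMod p) ^ 2) * jacobiSum χ χ := by
    rw [jacobiSum, Finset.mul_sum]
    refine (Fintype.sum_equiv (Equiv.mulLeft₀ (-(c : ZMod p)) (neg_ne_zero.mpr hc)) _ _
      fun v => ?_).symm
    rw [show Equiv.mulLeft₀ (-(c : ZMod p)) (neg_ne_zero.mpr hc) v = -(c : ZMod p) * v from rfl,
      show (-(c : ZMod p) * v) ^ 2 + (c : ZMod p) * (-(c : ZMod p) * v) =
        -1 * ((c : ZMod p) ^ 2 * (v * (1 - v))) by ring]
    simp only [map_mul, hχ, cubicChar_neg_one, one_mul]
  rw [apOfModel_jZeroModel c hp3 hc, Int.cast_sub, Int.cast_natCast, Int.cast_sum,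
    Finset.sum_congr rfl fun y _ => (Int.cast_natCast _).trans (card_cubeRoots hj hp3 _),
    Finset.sum_add_distrib, Finset.sum_add_distrib, ← hχ, ← star_sum, hS, Finset.sum_const,
    Finset.card_univ, ZMod.card, nsmul_one]
  simp only [primaryPrime, ← hχ, mul_neg, star_neg]
  ring

end prime

end FA.CM.Cubic

end
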