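import Fermat.Agent.CM.Cubic.Coeff
import Fermat.Agent.CM.LatticeTheta
import Fermat.Agent.Deform.EigenLift

/-!
# The theta series of a Grössencharakter of `ℚ(√-3)`

On `(X, Y)` with `X + Y` even, standing for `α = (X + Y √-3) / 2`, the function is `φ (α)` on
`α ≡ 1 (mod 3)`, `-φ (-α)` on their negatives and `0` elsewhere. Its lattice sum is a cusp form of
weight two with the coefficients `∑ φ (α) α`.
-/

set_option autoImplicit false

noncomputable section

open CongruenceSubgroup
open scoped QuadraticAlgebra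

namespace FA.CM.Cubic

open scoped Classical in
/-- `φ` on the elements congruent to `1` modulo `3`. -/
def primaryPart (φ : EInt → EInt) (α : EInt) : EInt := if IsPrimary α then φ α else 0

/-- `φ (α)` for `α ≡ 1`, `-φ (-α)` for `α ≡ -1`. -/
def signedPart (φ : EInt → EInt) (α : EInt) : EInt := primaryPart φ α - primaryPart φ (-α)

/-- The function on `ℤ²`. -/
def latticeWeight (φ : EInt → EInt) (a b : ℤ) : ℂ :=
  if (a + b) % 2 = 0 then toC (signedPart φ ⟨(a + b) / 2, b⟩) else 0

variable {c : ℤ} {φ : EInt → EInt}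

theorem signedPart_periodic (hφ : IsWeight c φ) (α γ : EInt) :
    signedPart φ (α + ((9 * c : ℤ) : EInt) * γ) = signedPart φ α := by
  classical
  have h : ∀ α γ : EInt, primaryPart φ (α + ((9 * c : ℤ) : EInt) * γ) = primaryPart φ α := by
    intro α γ
    have e1 : (α + ((9 * c : ℤ) : EInt) * γ).re = α.re + 3 * (3 * c * γ.re) := by simp; ring
    have e2 : (α + ((9 * c : ℤ) : EInt) * γ).im = α.im + 3 * (3 * c * γ.im) := by simp; ring
    have h : IsPrimary (α + ((9 * c : ℤ) : EInt) * γ) ↔ IsPrimary α := by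
      simp only [IsPrimary, e1, e2]
      omega
    simp only [primaryPart, h, hφ.periodic]
  rw [signedPart, signedPart, show -(α + ((9 * c : ℤ) : EInt) * γ) =
    -α + ((9 * c : ℤ) : EInt) * -γ by ring, h, h]

theorem latticeWeight_periodic (hφ : IsWeight c φ) (a b s t : ℤ) :
    latticeWeight φ (a + 36 * c * s) (b + 36 * c * t) = latticeWeight φ a b := by
  have e1 : a + 36 * c * s + (b + 36 * c * t) = a + b + 2 * (18 * c * (s + t)) := by ring
  have h : (a + b + 2 * (18 * c * (s + t))) % 2 = (a + b) % 2 := by omega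
  have h' : (a + b + 2 * (18 * c * (s + t))) / 2 = (a + b) / 2 + 18 * c * (s + t) := by omega
  rw [latticeWeight, latticeWeight, e1, h, h']
  refine if_congr Iff.rfl (congrArg toC ?_) rfl
  rw [show (⟨(a + b) / 2 + 18 * c * (s + t), b + 36 * c * t⟩ : EInt) =
      ⟨(a + b) / 2, b⟩ + ((9 * c : ℤ) : EInt) * ⟨2 * (s + t), 4 * t⟩ by
    ext <;> simp <;> ring, signedPart_periodic hφ]

theorem signedPart_intCast_mul (hφ : IsWeight c φ) {d : ℤ} (hd : d % 3 ≠ 0) (hc : IsCoprime d c)
    (α : EInt) :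
    signedPart φ ((d : EInt) * α) = if d % 3 = 1 then signedPart φ α else -signedPart φ α := by
  classical
  have key : ∀ {d : ℤ}, d % 3 = 1 → IsCoprime d c → ∀ α : EInt,
      primaryPart φ ((d : EInt) * α) = primaryPart φ α := fun {d} h3 hc α => by
    have hdp := isPrimary_intCast h3
    by_cases h : IsPrimary α
    · rw [primaryPart, primaryPart, if_pos (hdp.mul h), if_pos h, hφ.map_mul _ _ hdp h,
        hφ.map_int d h3 hc, one_mul]
    · rw [primaryPart, primaryPart, if_neg h, if_neg fun h' => h (hdp.of_mul h')]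
  split_ifs with h
  · rw [signedPart, signedPart, ← mul_neg, key h hc, key h hc]
  · rw [signedPart, signedPart, show (d : EInt) * α = ((-d : ℤ) : EInt) * -α by push_cast; ring,
      ← mul_neg, neg_neg, key (by omega) hc.neg_left, key (by omega) hc.neg_left, neg_sub]

/-- `(-3 / d)` is the class of `d` modulo `3`. -/
theorem jacobiSym_neg_three {d : ℕ} (h2 : Odd d) (h3 : d % 3 ≠ 0) :
    jacobiSym (-((3 : ℕ) : ℤ)) d = if d % 3 = 1 then 1 else -1 := by
  rw [jacobiSym.mod_right _ h2]
  have h2' := Nat.odd_iff.mp h2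
  have hm : d % (4 * (-((3 : ℕ) : ℤ)).natAbs) = d % 12 := by norm_num
  rw [hm]
  rcases (show d % 12 = 1 ∨ d % 12 = 5 ∨ d % 12 = 7 ∨ d % 12 = 11 by omega) with h | h | h | h
  all_goals rw [h]
  all_goals first
    | rw [if_pos (by omega)]
    | rw [if_neg (by omega)]
  all_goals norm_num

theorem latticeWeight_intCast_mul (hφ : IsWeight c φ) {d : ℕ} (h2 : Odd d) (h3 : d % 3 ≠ 0)
    (hc : IsCoprime (d : ℤ) c) (a b : ℤ) :
    latticeWeight φ (d * a) (d * b) =
      (jacobiSym (-((3 : ℕ) : ℤ)) d : ℂ) * latticeWeight φ a b := by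
  have hodd : (d : ℤ) % 2 = 1 := by have := Nat.odd_iff.mp h2; omega
  rw [latticeWeight, latticeWeight, ← mul_add]
  by_cases hab : (a + b) % 2 = 0
  · obtain ⟨u, hu⟩ := Int.dvd_of_emod_eq_zero hab
    have e : (⟨((d : ℤ) * (a + b)) / 2, (d : ℤ) * b⟩ : EInt) =
        ((d : ℤ) : EInt) * ⟨(a + b) / 2, b⟩ := by
      rw [Int.mul_ediv_assoc _ (Int.dvd_of_emod_eq_zero hab)]
      ext <;> simp
    rw [if_pos hab, if_pos (by rw [Int.mul_emod, hab]; simp), e,
      signedPart_intCast_mul hφ (by omega) hc, jacobiSym_neg_three h2 h3]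
    split_ifs with h h' h'
    · simp
    · omega
    · omega
    · simp [map_neg]
  · rw [if_neg hab, mul_zero, if_neg]
    rw [Int.mul_emod, hodd, one_mul, Int.emod_emod_of_dvd _ dvd_rfl]
    exact hab

/-- **The theta coefficients.** -/
theorem sum_latticeWeight (n : ℕ) {s : Finset (ℤ × ℤ)}
    (hs : ∀ v : ℤ × ℤ, v ∈ s ↔ v.1 ^ 2 + 3 * v.2 ^ 2 = 4 * (n : ℤ)) :
    ∑ v ∈ s, latticeWeight φ v.1 v.2 * latLam 3 ((v.1 : ℂ), (v.2 : ℂ)) =
      4 * toC (primarySum φ n) := by
  classical
  set T : Finset EInt := primarySet n ∪ (primarySet n).image (fun α => -α)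
  have hT : ∀ α, α ∈ T ↔ (IsPrimary α ∨ IsPrimary (-α)) ∧ α.norm = (n : ℤ) := fun α => by
    simp only [T, Finset.mem_union, Finset.mem_image, mem_primarySet]
    constructor
    · rintro (⟨h, h'⟩ | ⟨β, ⟨h, h'⟩, rfl⟩)
      · exact ⟨Or.inl h, h'⟩
      · exact ⟨Or.inr (by rwa [neg_neg]), by rw [QuadraticAlgebra.norm_neg, h']⟩
    · rintro ⟨h | h, h'⟩
      · exact Or.inl ⟨h, h'⟩
      · exact Or.inr ⟨-α, ⟨h, by rw [QuadraticAlgebra.norm_neg, h']⟩, neg_neg α⟩
  have hdisj : Disjoint (primarySet n) ((primarySet n).image (fun α => -α)) := by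
    refine Finset.disjoint_left.mpr fun α h h' => ?_
    obtain ⟨β, hβ, rfl⟩ := Finset.mem_image.mp h'
    have h1 := (mem_primarySet.mp h).1
    have h2 := (mem_primarySet.mp hβ).1
    simp only [IsPrimary, QuadraticAlgebra.re_neg] at h1 h2
    omega
  have key : ∑ α ∈ T, toC (signedPart φ α) * (2 * toC α) = 4 * toC (primarySum φ n) := by
    rw [Finset.sum_union hdisj, Finset.sum_image fun _ _ _ _ h => neg_inj.mp h, primarySum, map_sum,
      Finset.mul_sum, ← Finset.sum_add_distrib]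
    refine Finset.sum_congr rfl fun α hα => ?_
    have h1 := (mem_primarySet.mp hα).1
    have h2 : ¬ IsPrimary (-α) := fun h2 => by
      simp only [IsPrimary, QuadraticAlgebra.re_neg] at h1 h2; omega
    simp only [signedPart, primaryPart, neg_neg, if_pos h1, if_neg h2, map_mul, map_sub, map_neg,
      map_zero]
    ring
  rw [← key]
  refine Finset.sum_bij_ne_zero (fun v _ _ => (⟨(v.1 + v.2) / 2, v.2⟩ : EInt))
    (fun v hv hne => ?_) (fun u _ hu v _ hv h => ?_) (fun α hα hne => ?_) (fun v hv hne => ?_)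
  · have he : (v.1 + v.2) % 2 = 0 := by
      by_contra h; exact hne (by rw [latticeWeight, if_neg h, zero_mul])
    obtain ⟨u, hu⟩ := Int.dvd_of_emod_eq_zero he
    rw [latticeWeight, if_pos he] at hne
    rw [hT]
    refine ⟨?_, ?_⟩
    · by_contra h
      rw [not_or] at h
      exact hne (by rw [signedPart, primaryPart, primaryPart, if_neg h.1, if_neg h.2]; simp)
    · have hv' := (hs v).mp hv
      rw [norm_eq, hu, Int.mul_ediv_cancel_left _ (by norm_num : (2 : ℤ) ≠ 0)]
      rw [show v.1 = 2 * u - v.2 by omega] at hv'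
      linarith
  · have e1 := congrArg QuadraticAlgebra.re h
    have e2 := congrArg QuadraticAlgebra.im h
    simp only at e1 e2
    have h1 : (u.1 + u.2) % 2 = 0 := by
      by_contra h; exact hu (by rw [latticeWeight, if_neg h, zero_mul])
    have h2 : (v.1 + v.2) % 2 = 0 := by
      by_contra h; exact hv (by rw [latticeWeight, if_neg h, zero_mul])
    exact Prod.ext (by omega) e2
  · have he : ((2 * α.re - α.im) + α.im) / 2 = α.re := by omega
    refine ⟨(2 * α.re - α.im, α.im), (hs _).mpr ?_, ?_, ?_⟩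
    · have := ((hT α).mp hα).2
      rw [norm_eq] at this
      linear_combination 4 * this
    · rw [latticeWeight, if_pos (by omega), he, latLam,
        show (⟨α.re, α.im⟩ : EInt) = α from rfl]
      rw [two_mul_toC] at hne
      simpa using hne
    · simp only [he]
  · have he : (v.1 + v.2) % 2 = 0 := by
      by_contra h; exact hne (by rw [latticeWeight, if_neg h, zero_mul])
    rw [latticeWeight, if_pos he, two_mul_toC, latLam]
    rw [show 2 * ((v.1 + v.2) / 2) - v.2 = v.1 by omega]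
    simp

/-- **The form of a weight.** -/
theorem exists_primarySum_form (hc : c ≠ 0) (hφ : IsWeight c φ) :
    ∃ (N : ℕ) (f : CuspForm (Gamma0 N) 2), 0 < N ∧
      (∀ p : ℕ, p.Prime → p ∣ N → p = 2 ∨ p = 3 ∨ (p : ℤ) ∣ c) ∧
      (∀ p : ℕ, p.Prime → p = 2 ∨ p = 3 ∨ (p : ℤ) ∣ c → p ∣ N) ∧
      ∀ n : ℕ, ModularFormClass.qCoeff f n = toC (primarySum φ n) := by
  set M' : ℕ := 9 * c.natAbs with hM'
  set M : ℕ := 4 * M' with hM
  have : NeZero M' := ⟨by simp [hM', hc]⟩
  have : NeZero M := ⟨by simp [hM, hM', hc]⟩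
  have hMc : 36 * c ∣ (M : ℤ) := by
    rw [hM, hM']; push_cast; rw [← mul_assoc]; norm_num
    exact mul_dvd_mul_left 36 (self_dvd_abs c)
  obtain ⟨k, hk⟩ := hMc
  obtain ⟨f, hf⟩ := exists_latForm_of_periodic (D := 3) (e := 4) (M := M) (M' := M') hM
    (latticeWeight φ) (fun a b s t => by
      rw [hk, mul_assoc (36 * c) k s, mul_assoc (36 * c) k t, latticeWeight_periodic hφ])
    (fun v hv => by
      have he : (v.1 + v.2) % 2 = 0 := by
        by_contra h; exact hv (by rw [latticeWeight, if_neg h])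
      obtain ⟨u, hu⟩ := Int.dvd_of_emod_eq_zero he
      refine ⟨u ^ 2 - u * v.2 + v.2 ^ 2, ?_⟩
      rw [latQ, show v.1 = 2 * u - v.2 by omega]
      push_cast
      ring)
    fun d hd a b => by
      have h6 : d.Coprime (2 * 3) := hd.coprime_dvd_right (dvd_mul_right _ M)
      have hodd : Odd d := Nat.coprime_two_right.mp (h6.coprime_dvd_right (dvd_mul_right 2 3))
      have h3 : d % 3 ≠ 0 := fun h => by
        have := Nat.eq_one_of_dvd_coprimes h6 (Nat.dvd_of_mod_eq_zero h) (dvd_mul_left 3 2)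
        norm_num at this
      have hdc : IsCoprime (d : ℤ) c := by
        rw [Int.isCoprime_iff_nat_coprime, Int.natAbs_natCast]
        exact hd.coprime_dvd_right (Dvd.intro (2 * 3 * 36) (by rw [hM, hM']; ring))
      rw [latticeWeight_intCast_mul hφ hodd h3 hdc]
  generalize hN : 4 * 3 * M * M' = N at f hf
  have : NeZero N := ⟨by simp [← hN, NeZero.ne M, NeZero.ne M']⟩
  refine ⟨N, (4⁻¹ : ℂ) • f, NeZero.pos N, fun p hp hpN => ?_, fun p _ h => ?_, fun n => ?_⟩
  · rw [← hN, hM, hM', show 4 * 3 * (4 * (9 * c.natAbs)) * (9 * c.natAbs) =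
      2 ^ 4 * (3 ^ 5 * c.natAbs ^ 2) by ring, hp.dvd_mul, hp.dvd_mul] at hpN
    rcases hpN with h | h | h
    · exact Or.inl ((Nat.prime_dvd_prime_iff_eq hp Nat.prime_two).mp (hp.dvd_of_dvd_pow h))
    · exact Or.inr (Or.inl ((Nat.prime_dvd_prime_iff_eq hp Nat.prime_three).mp (hp.dvd_of_dvd_pow h)))
    · exact Or.inr (Or.inr (Int.natCast_dvd.mpr (hp.dvd_of_dvd_pow h)))
  · rw [← hN, hM, hM', show 4 * 3 * (4 * (9 * c.natAbs)) * (9 * c.natAbs) =
      2 ^ 4 * 3 ^ 5 * c.natAbs ^ 2 by ring]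
    rcases h with rfl | rfl | h
    · exact ((dvd_pow_self 2 (by norm_num)).mul_right _).mul_right _
    · exact ((dvd_pow_self 3 (by norm_num)).mul_left _).mul_right _
    · exact ((Int.natCast_dvd.mp h).trans (dvd_pow_self _ two_ne_zero)).mul_left _
  rw [← FA.Deform.qLin_apply, map_smul, Pi.smul_apply, FA.Deform.qLin_apply, hf,
    sum_latticeWeight n (fun v => by rw [mem_latSet]; simp [latQ]), smul_eq_mul]
  ring

end FA.CM.Cubic

end
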